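/-
S30 top (architect helper216).  Definitions: the abstract interface between the geometric part
(Kummer model of the torsion of `J₀(N)`) and the construction of the `p`-adic representation.
-/
import Mathlib
import Fermat.Prelude.Def_CuspForm_HeckeGaloisRepDatum
import Fermat.Prelude.Def_GaloisRep_ComplexConjugation

set_option autoImplicit false

namespace Fermat.Agent.S30

/-- The absolute Galois group of `ℚ`. -/
abbrev GQ : Type := AlgebraicClosure ℚ ≃ₐ[ℚ] AlgebraicClosure ℚ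

/-- The abstract Hecke algebra `ℤ[X_ℓ]`. -/
abbrev HA : Type := MvPolynomial ℕ ℤ

/-- `g` acts on the `p ^ k`-th roots of unity by `μ ↦ μ ^ e`. -/
def IsCyc (p k : ℕ) (g : GQ) (e : ℕ) : Prop :=
  ∀ μ : AlgebraicClosure ℚ, μ ^ p ^ k = 1 → g μ = μ ^ e

/-- `σ` is a Frobenius lift at the prime `ℓ` (for some place of `ℚ̄` above `ℓ`). -/
def IsFrob (σ : GQ) (ℓ : ℕ) : Prop :=
  ∃ A : ValuationSubring (AlgebraicClosure ℚ), A.LiesOverPrime ℓ ∧ A.IsFrobeniusAt σ ℓ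

/-- `σ` lies in an inertia group above `q`. -/
def IsInertia (σ : GQ) (q : ℕ) : Prop :=
  ∃ A : ValuationSubring (AlgebraicClosure ℚ), A.LiesOverPrime q ∧ σ ∈ A.inertiaSubgroupIn ℚ

/-- The Frobenius density theorem in existence form (statement of
`Fermat.Agent.Lib.FrobDensity.exists_frobenius_generator`). -/
def WeakCheb : Prop :=
  ∀ (L : IntermediateField ℚ (AlgebraicClosure ℚ)) [FiniteDimensional ℚ L] (σ : GQ) (S : Finset ℕ),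
    ∃ (ℓ : ℕ) (A : ValuationSubring (AlgebraicClosure ℚ)) (φ : GQ) (a b : ℕ),
      ℓ.Prime ∧ ℓ ∉ S ∧ A.LiesOverPrime ℓ ∧ A.IsFrobeniusAt φ ℓ ∧
      (∀ x ∈ L, φ x = (σ ^ a) x) ∧ (∀ x ∈ L, (φ ^ b) x = σ x)

/-- Layer `k` of a Hecke-Galois tower: a `ℤ[X_ℓ]`-module `W` killed by `p ^ k` with a commuting
action of `G_ℚ` of finite level, unramified outside `N p`, satisfying the Eichler-Shimura relation
at all primes outside `S`, and on which the eigensystem `a` occurs modulo `p ^ k`. -/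
structure Level (N p : ℕ) (S : Finset ℕ) {𝒪 : Type} [CommRing 𝒪] (a : ℕ → 𝒪) (k : ℕ) :
    Type 1 where
  W : Type
  [instAddCommGroup : AddCommGroup W]
  [instModule : Module HA W]
  ρ : GQ →* Module.End HA W
  pow_smul : ∀ w : W, (p ^ k : ℕ) • w = 0
  finiteLevel : ∃ L : IntermediateField ℚ (AlgebraicClosure ℚ), FiniteDimensional ℚ L ∧
    ∀ σ : GQ, (∀ x ∈ L, σ x = x) → ρ σ = 1
  unramified : ∀ q : ℕ, q.Prime → ¬ q ∣ N → q ≠ p → ∀ σ : GQ, IsInertia σ q → ρ σ = 1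
  eichlerShimura : ∀ ℓ : ℕ, ℓ.Prime → ℓ ∉ S → ∀ σ : GQ, IsFrob σ ℓ →
    ∀ w : W, ρ σ (ρ σ w) - (MvPolynomial.X ℓ : HA) • ρ σ w + (ℓ : ℕ) • w = 0
  faithful : ∀ P : HA, (∀ w : W, P • w = 0) →
    MvPolynomial.aeval a P ∈ Ideal.span {((p ^ k : ℕ) : 𝒪)}

attribute [instance] Level.instAddCommGroup Level.instModule

/-- A two-dimensional pseudo-representation `(t, ε)` of `G_ℚ` with values in `𝒪`, odd, with the
Frobenius values prescribed by `a`, continuous, unramified outside `N p`. -/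
structure Pseudo (N p : ℕ) (S : Finset ℕ) {𝒪 : Type} [CommRing 𝒪] [IsLocalRing 𝒪] (a : ℕ → 𝒪) :
    Type where
  t : GQ → 𝒪
  ε : GQ →* 𝒪ˣ
  t_one : t 1 = 2
  t_comm : ∀ g h : GQ, t (g * h) = t (h * g)
  t_mul : ∀ g h : GQ, t g * t h = t (g * h) + (ε h : 𝒪) * t (g * h⁻¹)
  t_conj : t complexConjugation = 0
  ε_conj : ε complexConjugation = -1
  t_frob : ∀ ℓ : ℕ, ℓ.Prime → ℓ ∉ S → ∀ σ : GQ, IsFrob σ ℓ → t σ = a ℓ
  ε_frob : ∀ ℓ : ℕ, ℓ.Prime → ℓ ∉ S → ∀ σ : GQ, IsFrob σ ℓ → (ε σ : 𝒪) = (ℓ : 𝒪)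
  t_unram : ∀ q : ℕ, q.Prime → ¬ q ∣ N → q ≠ p → ∀ σ : GQ, IsInertia σ q →
    ∀ g : GQ, t (g * σ) = t g
  ε_unram : ∀ q : ℕ, q.Prime → ¬ q ∣ N → q ≠ p → ∀ σ : GQ, IsInertia σ q → ε σ = 1
  continuous : ∀ n : ℕ, ∃ L : IntermediateField ℚ (AlgebraicClosure ℚ), FiniteDimensional ℚ L ∧
    ∀ σ : GQ, (∀ x ∈ L, σ x = x) →
      (∀ g : GQ, t (g * σ) - t g ∈ IsLocalRing.maximalIdeal 𝒪 ^ n) ∧
      (ε σ : 𝒪) - 1 ∈ IsLocalRing.maximalIdeal 𝒪 ^ n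

/-- The eigenvalues of `χ` (zero at the bad indices). -/
noncomputable def aOf {N : ℕ} [NeZero N] {S : Finset ℕ} {𝒪 : Type} [CommRing 𝒪]
    (χ : CuspForm.heckeAlgebra N 2 (↑S : Set ℕ) →+* 𝒪) (ℓ : ℕ) : 𝒪 :=
  open Classical in
  if h : ℓ.Prime ∧ ¬ ℓ ∣ N ∧ ℓ ∉ (↑S : Set ℕ) then χ (CuspForm.heckeAlgebra.T h.1 h.2.1 h.2.2)
  else 0

theorem aOf_eq {N : ℕ} [NeZero N] {S : Finset ℕ} {𝒪 : Type} [CommRing 𝒪]
    (χ : CuspForm.heckeAlgebra N 2 (↑S : Set ℕ) →+* 𝒪) {ℓ : ℕ} (hℓ : ℓ.Prime) (hℓN : ¬ ℓ ∣ N)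
    (hℓS : ℓ ∉ (↑S : Set ℕ)) : aOf χ ℓ = χ (CuspForm.heckeAlgebra.T hℓ hℓN hℓS) := by
  unfold aOf
  rw [dif_pos ⟨hℓ, hℓN, hℓS⟩]

end Fermat.Agent.S30
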