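/-
S30 top (skeleton by helper216).  TASK S30-P01.
The cyclotomic character: action of `G_ℚ` on `p`-power roots of unity.
-/
import Fermat.Agent.S30.Defs
import Fermat.Agent.S29.Cyclo

set_option autoImplicit false

namespace Fermat.Agent.S30

variable {p : ℕ} [Fact p.Prime] {k : ℕ}

/-- a primitive `p ^ k`-th root of unity in `ℚ̄`. -/
theorem exists_primRoot (p : ℕ) [Fact p.Prime] (k : ℕ) :
    ∃ ζ : AlgebraicClosure ℚ, IsPrimitiveRoot ζ (p ^ k) := by
  have hp : p.Prime := Fact.out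
  have : NeZero (p ^ k) := ⟨pow_ne_zero _ hp.ne_zero⟩
  have : NeZero ((p ^ k : ℕ) : AlgebraicClosure ℚ) :=
    ⟨Nat.cast_ne_zero.mpr (pow_ne_zero _ hp.ne_zero)⟩
  exact HasEnoughRootsOfUnity.exists_primitiveRoot (AlgebraicClosure ℚ) (p ^ k)

theorem exists_isCyc (p : ℕ) [Fact p.Prime] (k : ℕ) (g : GQ) : ∃ e : ℕ, IsCyc p k g e := by
  have hp : p.Prime := Fact.out
  have hpos : 0 < p ^ k := pow_pos hp.pos _
  have : NeZero (p ^ k) := ⟨hpos.ne'⟩
  obtain ⟨ζ, hζ⟩ := exists_primRoot p k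
  have h1 : (g ζ) ^ p ^ k = 1 := by rw [← map_pow, hζ.pow_eq_one, map_one]
  obtain ⟨e, -, he⟩ := hζ.eq_pow_of_pow_eq_one h1
  refine ⟨e, fun μ hμ => ?_⟩
  obtain ⟨i, -, rfl⟩ := hζ.eq_pow_of_pow_eq_one hμ
  rw [map_pow, ← he, ← pow_mul, ← pow_mul, mul_comm]

theorem IsCyc.modEq {g : GQ} {e e' : ℕ} (h : IsCyc p k g e) (h' : IsCyc p k g e') :
    e ≡ e' [MOD p ^ k] := by
  obtain ⟨ζ, hζ⟩ := exists_primRoot p k
  have hp : p.Prime := Fact.out
  have h1 : ζ ^ e = ζ ^ e' := by rw [← h ζ hζ.pow_eq_one, ← h' ζ hζ.pow_eq_one]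
  have hfin : IsOfFinOrder ζ :=
    isOfFinOrder_iff_pow_eq_one.mpr ⟨p ^ k, pow_pos hp.pos _, hζ.pow_eq_one⟩
  rw [hζ.eq_orderOf]
  exact hfin.pow_eq_pow_iff_modEq.mp h1

theorem IsCyc.of_modEq {g : GQ} {e e' : ℕ} (h : IsCyc p k g e) (h' : e ≡ e' [MOD p ^ k]) :
    IsCyc p k g e' := by
  intro μ hμ
  have hp : p.Prime := Fact.out
  have hfin : IsOfFinOrder μ :=
    isOfFinOrder_iff_pow_eq_one.mpr ⟨p ^ k, pow_pos hp.pos _, hμ⟩
  rw [h μ hμ]
  exact hfin.pow_eq_pow_iff_modEq.mpr (h'.of_dvd (orderOf_dvd_of_pow_eq_one hμ))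

theorem isCyc_one : IsCyc p k 1 1 := by
  intro μ _
  simp

theorem IsCyc.mul {g h : GQ} {e f : ℕ} (hg : IsCyc p k g e) (hh : IsCyc p k h f) :
    IsCyc p k (g * h) (e * f) := by
  intro μ hμ
  rw [AlgEquiv.mul_apply, hh μ hμ, map_pow, hg μ hμ, ← pow_mul]

theorem IsCyc.pow {g : GQ} {e : ℕ} (hg : IsCyc p k g e) (n : ℕ) :
    IsCyc p k (g ^ n) (e ^ n) := by
  induction n with
  | zero => simpa using (isCyc_one (p := p) (k := k))
  | succ n ih =>
    rw [pow_succ, pow_succ]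
    exact ih.mul hg

theorem IsCyc.mono {g : GQ} {e k' : ℕ} (hg : IsCyc p k g e) (hk : k' ≤ k) : IsCyc p k' g e := by
  intro μ hμ
  apply hg
  obtain ⟨d, rfl⟩ := Nat.exists_eq_add_of_le hk
  rw [pow_add, pow_mul, hμ, one_pow]

/-- if `e`, `f` are the exponents of `g`, `g⁻¹` then `e f ≡ 1`. -/
theorem IsCyc.mul_inv_modEq {g : GQ} {e f : ℕ} (hg : IsCyc p k g e) (hh : IsCyc p k g⁻¹ f) :
    e * f ≡ 1 [MOD p ^ k] := by
  have h1 := hg.mul hh
  rw [mul_inv_cancel] at h1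
  exact h1.modEq isCyc_one

section Roots

variable {L : Type*} [Field L]

theorem not_valuation_sub_one_lt_one' (A : ValuationSubring L) {ℓ n : ℕ} (hℓ : ℓ.Prime)
    (hn : ¬ ℓ ∣ n) (hA : A.LiesOverPrime ℓ) {η : L} (hη : η ^ n = 1) (hη1 : η ≠ 1) :
    ¬ A.valuation (η - 1) < 1 := by
  intro hlt
  have hn0 : n ≠ 0 := by
    rintro rfl
    exact hn (dvd_zero _)
  have hsum : ∑ i ∈ Finset.range n, η ^ i = 0 := by
    have h1 := geom_sum_mul η n
    rw [hη, sub_self] at h1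
    exact (mul_eq_zero.mp h1).resolve_right (sub_ne_zero.mpr hη1)
  have hv : A.valuation η = 1 := S29.Cyclo.valuation_eq_one_of_pow_eq_one A hn0 hη
  have hterm : ∀ i : ℕ, A.valuation (η ^ i - 1) < 1 := by
    intro i
    induction i with
    | zero => simp
    | succ i ih =>
      have : η ^ (i + 1) - 1 = η * (η ^ i - 1) + (η - 1) := by ring
      rw [this]
      apply Valuation.map_add_lt _ _ hlt
      rw [map_mul, hv, one_mul]
      exact ih
  have hpsum : (n : L) = - ∑ i ∈ Finset.range n, (η ^ i - 1) := by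
    rw [Finset.sum_sub_distrib, hsum]
    simp
  have hlt' : A.valuation (n : L) < 1 := by
    rw [hpsum, Valuation.map_neg]
    exact Valuation.map_sum_lt _ one_ne_zero (fun i _ => hterm i)
  have hnd : ¬ (ℓ : ℤ) ∣ (n : ℤ) := fun h => hn (Int.natCast_dvd_natCast.mp h)
  have := S05.valuation_intCast_eq_one A hℓ hA hnd
  rw [Int.cast_natCast] at this
  exact absurd this hlt'.ne

theorem eq_of_valuation_sub_lt_one' (A : ValuationSubring L) {ℓ n : ℕ} (hℓ : ℓ.Prime)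
    (hn : ¬ ℓ ∣ n) (hA : A.LiesOverPrime ℓ) {x y : L} (hx : x ^ n = 1)
    (hy : y ^ n = 1) (h : A.valuation (x - y) < 1) : x = y := by
  by_contra hxy
  have hn0 : n ≠ 0 := by
    rintro rfl
    exact hn (dvd_zero _)
  have hy0 : y ≠ 0 := by
    rintro rfl
    rw [zero_pow hn0] at hy
    exact zero_ne_one hy
  have h1 : (x / y) ^ n = 1 := by rw [div_pow, hx, hy, div_one]
  have h2 : x / y ≠ 1 := by
    intro h3
    exact hxy ((div_eq_one_iff_eq hy0).mp h3)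
  apply not_valuation_sub_one_lt_one' A hℓ hn hA h1 h2
  have h3 : x / y - 1 = (x - y) / y := by field_simp
  rw [h3, map_div₀, S29.Cyclo.valuation_eq_one_of_pow_eq_one A hn0 hy, div_one]
  exact h

end Roots

theorem not_dvd_prime_pow {ℓ : ℕ} (hℓ : ℓ.Prime) (hℓp : ℓ ≠ p) : ¬ ℓ ∣ p ^ k := by
  have hp : p.Prime := Fact.out
  intro h
  exact hℓp ((Nat.prime_dvd_prime_iff_eq hℓ hp).mp (hℓ.dvd_of_dvd_pow h))

theorem isCyc_frob {σ : GQ} {ℓ : ℕ} (hℓ : ℓ.Prime) (hℓp : ℓ ≠ p) (hσ : IsFrob σ ℓ) :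
    IsCyc p k σ ℓ := by
  have hp : p.Prime := Fact.out
  obtain ⟨A, hA, hfr⟩ := hσ
  intro x hx
  apply eq_of_valuation_sub_lt_one' A hℓ (not_dvd_prime_pow (k := k) hℓ hℓp) hA
  · rw [← map_pow, hx, map_one]
  · rw [← pow_mul, mul_comm, pow_mul, hx, one_pow]
  · exact S29.Cyclo.frob_valuation_sub_lt_one A hfr
      (S29.Cyclo.valuation_eq_one_of_pow_eq_one A (pow_ne_zero _ hp.ne_zero) hx).le

theorem isCyc_inertia {σ : GQ} {q : ℕ} (hq : q.Prime) (hqp : q ≠ p) (hσ : IsInertia σ q) :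
    IsCyc p k σ 1 := by
  have hp : p.Prime := Fact.out
  obtain ⟨A, hA, hin⟩ := hσ
  intro x hx
  rw [pow_one]
  apply eq_of_valuation_sub_lt_one' A hq (not_dvd_prime_pow (k := k) hq hqp) hA
  · rw [← map_pow, hx, map_one]
  · exact hx
  · exact S05.inertia_valuation_sub_lt_one A hin
      (S29.Cyclo.valuation_eq_one_of_pow_eq_one A (pow_ne_zero _ hp.ne_zero) hx).le

theorem isCyc_complexConjugation : IsCyc p k complexConjugation (p ^ k - 1) := by
  have hp : p.Prime := Fact.out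
  have hpos : 0 < p ^ k := pow_pos hp.pos _
  intro μ hμ
  apply complexEmbedding.toRingHom.injective
  change complexEmbedding (complexConjugation μ) = complexEmbedding (μ ^ (p ^ k - 1))
  rw [complexEmbedding_complexConjugation, map_pow]
  set z := complexEmbedding μ with hz
  have hz1 : z ^ p ^ k = 1 := by rw [hz, ← map_pow, hμ, map_one]
  have hnorm : ‖z‖ = 1 := Complex.norm_eq_one_of_pow_eq_one hz1 hpos.ne'
  rw [← Complex.inv_eq_conj hnorm]
  have hz0 : z ≠ 0 := by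
    rintro h0
    rw [h0, zero_pow hpos.ne'] at hz1
    exact zero_ne_one hz1
  apply inv_eq_of_mul_eq_one_right
  rw [← pow_succ', Nat.sub_add_cancel hpos, hz1]

/-- a number field containing the `p ^ k`-th roots of unity. -/
theorem exists_cycloField (p : ℕ) [Fact p.Prime] (k : ℕ) :
    ∃ L : IntermediateField ℚ (AlgebraicClosure ℚ), FiniteDimensional ℚ L ∧
      ∀ μ : AlgebraicClosure ℚ, μ ^ p ^ k = 1 → μ ∈ L := by
  have hp : p.Prime := Fact.out
  have hpos : 0 < p ^ k := pow_pos hp.pos _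
  refine ⟨IntermediateField.adjoin ℚ {x : AlgebraicClosure ℚ | x ^ p ^ k = 1}, ?_,
    fun μ hμ => IntermediateField.subset_adjoin ℚ _ hμ⟩
  have hfin : {x : AlgebraicClosure ℚ | x ^ p ^ k = 1}.Finite := by
    classical
    have h1 : {x : AlgebraicClosure ℚ | x ^ p ^ k = 1} ⊆
        ((Polynomial.nthRoots (p ^ k) (1 : AlgebraicClosure ℚ)).toFinset :
          Set (AlgebraicClosure ℚ)) := by
      intro x hx
      simp only [Finset.mem_coe, Multiset.mem_toFinset]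
      exact (Polynomial.mem_nthRoots hpos).mpr hx
    exact (Finset.finite_toSet _).subset h1
  have := hfin.to_subtype
  apply IntermediateField.finiteDimensional_adjoin
  intro x hx
  have hx' : x ^ p ^ k = 1 := hx
  exact IsIntegral.of_pow hpos (by rw [hx']; exact isIntegral_one)

/-- two elements which agree on a field containing the roots of unity have the same exponent. -/
theorem IsCyc.congr {g h : GQ} {e : ℕ} (hg : IsCyc p k g e)
    (hgh : ∀ μ : AlgebraicClosure ℚ, μ ^ p ^ k = 1 → h μ = g μ) : IsCyc p k h e := by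
  intro μ hμ
  rw [hgh μ hμ, hg μ hμ]

section Adic

variable (p) (𝒪 : Type) [CommRing 𝒪] [IsLocalRing 𝒪]
  [IsAdicComplete (IsLocalRing.maximalIdeal 𝒪) 𝒪]

/-- congruent naturals have congruent images. -/
theorem natCast_sub_mem_of_modEq {𝒪 : Type} [CommRing 𝒪] [IsLocalRing 𝒪]
    (hp : (p : 𝒪) ∈ IsLocalRing.maximalIdeal 𝒪) {k e e' : ℕ} (h : e ≡ e' [MOD p ^ k]) :
    (e : 𝒪) - (e' : 𝒪) ∈ IsLocalRing.maximalIdeal 𝒪 ^ k := by
  have h1 : ((p ^ k : ℕ) : ℤ) ∣ (e : ℤ) - (e' : ℤ) := (Nat.modEq_iff_dvd.mp h.symm)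
  obtain ⟨c, hc⟩ := h1
  have h2 : (e : 𝒪) - (e' : 𝒪) = (p : 𝒪) ^ k * (c : 𝒪) := by
    have := congrArg (Int.cast : ℤ → 𝒪) hc
    push_cast at this
    exact this
  rw [h2]
  exact Ideal.mul_mem_right _ _ (Ideal.pow_mem_pow hp k)

/-- pointwise existence of the value of the cyclotomic character. -/
theorem exists_cycVal (hp : (p : 𝒪) ∈ IsLocalRing.maximalIdeal 𝒪) (g : GQ) :
    ∃ x : 𝒪, ∀ (k : ℕ) (e : ℕ), IsCyc p k g e →
      x - (e : 𝒪) ∈ IsLocalRing.maximalIdeal 𝒪 ^ k := by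
  choose e he using fun k => exists_isCyc p k g
  have hc : ∀ {m n : ℕ}, m ≤ n →
      ((e m : 𝒪)) ≡ (e n : 𝒪) [SMOD (IsLocalRing.maximalIdeal 𝒪 ^ m • ⊤ : Submodule 𝒪 𝒪)] := by
    intro m n hmn
    rw [SModEq.sub_mem, smul_eq_mul, Ideal.mul_top]
    exact natCast_sub_mem_of_modEq p hp ((he m).modEq ((he n).mono hmn))
  obtain ⟨x, hx⟩ := IsPrecomplete.prec' (I := IsLocalRing.maximalIdeal 𝒪)
    (fun n => (e n : 𝒪)) hc
  refine ⟨x, fun k f hf => ?_⟩
  have h1 := hx k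
  rw [SModEq.sub_mem, smul_eq_mul, Ideal.mul_top] at h1
  have h2 := natCast_sub_mem_of_modEq p hp ((he k).modEq hf)
  have h3 : x - (f : 𝒪) = -((e k : 𝒪) - x) + ((e k : 𝒪) - (f : 𝒪)) := by ring
  rw [h3]
  exact add_mem (neg_mem h1) h2

/-- separatedness. -/
theorem eq_of_forall_sub_mem_cyclo {x y : 𝒪}
    (h : ∀ k : ℕ, x - y ∈ IsLocalRing.maximalIdeal 𝒪 ^ k) : x = y := by
  rw [← sub_eq_zero]
  apply IsHausdorff.haus' (I := IsLocalRing.maximalIdeal 𝒪)
  intro n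
  rw [SModEq.sub_mem, smul_eq_mul, Ideal.mul_top, sub_zero]
  exact h n

/-- The `p`-adic cyclotomic character with values in a complete local ring of residue
characteristic `p`. -/
theorem exists_cycChar (hp : (p : 𝒪) ∈ IsLocalRing.maximalIdeal 𝒪) :
    ∃ ε : GQ →* 𝒪ˣ, ∀ (k : ℕ) (g : GQ) (e : ℕ), IsCyc p k g e →
      (ε g : 𝒪) - (e : 𝒪) ∈ IsLocalRing.maximalIdeal 𝒪 ^ k := by
  choose x hx using exists_cycVal p 𝒪 hp
  have hone : x 1 = 1 := by
    apply eq_of_forall_sub_mem_cyclo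
    intro k
    simpa using hx 1 k 1 isCyc_one
  have hmul : ∀ g h : GQ, x (g * h) = x g * x h := by
    intro g h
    apply eq_of_forall_sub_mem_cyclo
    intro k
    obtain ⟨e, he⟩ := exists_isCyc p k g
    obtain ⟨f, hf⟩ := exists_isCyc p k h
    have h1 := hx (g * h) k (e * f) (he.mul hf)
    have h2 := hx g k e he
    have h3 := hx h k f hf
    have h4 : x (g * h) - x g * x h = (x (g * h) - ((e * f : ℕ) : 𝒪))
        - ((x g - (e : 𝒪)) * x h + (e : 𝒪) * (x h - (f : 𝒪))) := by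
      push_cast
      ring
    rw [h4]
    exact sub_mem h1 (add_mem (Ideal.mul_mem_right _ _ h2) (Ideal.mul_mem_left _ _ h3))
  let φ : GQ →* 𝒪 := { toFun := x, map_one' := hone, map_mul' := hmul }
  refine ⟨φ.toHomUnits, fun k g e he => ?_⟩
  exact hx g k e he

end Adic

end Fermat.Agent.S30
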