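/-
S30 top (skeleton by helper216).  TASKS S30-P02 (formal operator identities).
`P : ℤ[X_ℓ]` represents the operator `ρ g + ε(g) ρ g⁻¹` on a layer.
-/
import Fermat.Agent.S30.Cyclo

set_option autoImplicit false

namespace Fermat.Agent.S30

variable {N p : ℕ} [Fact p.Prime] {S : Finset ℕ} {𝒪 : Type} [CommRing 𝒪] {a : ℕ → 𝒪} {k : ℕ}

/-- `P` represents the operator `ρ g + e ρ g⁻¹`, `e` the cyclotomic exponent of `g`. -/
def Level.Represents (Lv : Level N p S a k) (g : GQ) (P : HA) : Prop :=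
  ∀ e : ℕ, IsCyc p k g e → ∀ w : Lv.W, Lv.ρ g w + e • Lv.ρ g⁻¹ w = P • w

variable (Lv : Level N p S a k)

omit [Fact p.Prime] in
theorem Level.nsmul_congr {e e' : ℕ} (h : e ≡ e' [MOD p ^ k]) (w : Lv.W) : e • w = e' • w := by
  obtain ⟨c, hc⟩ := (Nat.modEq_iff_dvd).1 h
  have h2 : ((e' : ℤ) - e) • w = 0 := by
    rw [hc, mul_comm, mul_smul, natCast_zsmul, Lv.pow_smul, smul_zero]
  rw [sub_smul, natCast_zsmul, natCast_zsmul, sub_eq_zero] at h2
  exact h2.symm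

omit [Fact p.Prime] in
theorem Level.ρ_inv_ρ (g : GQ) (w : Lv.W) : Lv.ρ g⁻¹ (Lv.ρ g w) = w := by
  have h : Lv.ρ g⁻¹ * Lv.ρ g = 1 := by rw [← map_mul, inv_mul_cancel, map_one]
  exact LinearMap.congr_fun h w

omit [Fact p.Prime] in
theorem Level.ρ_ρ_inv (g : GQ) (w : Lv.W) : Lv.ρ g (Lv.ρ g⁻¹ w) = w := by
  have h : Lv.ρ g * Lv.ρ g⁻¹ = 1 := by rw [← map_mul, mul_inv_cancel, map_one]
  exact LinearMap.congr_fun h w

omit [Fact p.Prime] in
theorem Level.ρ_mul_apply (g h : GQ) (w : Lv.W) : Lv.ρ (g * h) w = Lv.ρ g (Lv.ρ h w) := by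
  rw [map_mul]; rfl

theorem Level.represents_one : Lv.Represents 1 (MvPolynomial.C 2) := by
  intro e he w
  have h1 : e ≡ 1 [MOD p ^ k] := he.modEq isCyc_one
  rw [inv_one, map_one, Module.End.one_apply, Lv.nsmul_congr h1, one_smul]
  have : (MvPolynomial.C 2 : HA) = 2 := by simp
  rw [this, two_smul]

theorem Level.represents_complexConjugation : Lv.Represents complexConjugation 0 := by
  intro e he w
  have hc : (complexConjugation : GQ)⁻¹ = complexConjugation :=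
    inv_eq_of_mul_eq_one_left complexConjugation_mul_self
  have h1 : e ≡ p ^ k - 1 [MOD p ^ k] := he.modEq isCyc_complexConjugation
  have hpos : 0 < p ^ k := pow_pos (Fact.out : p.Prime).pos k
  rw [hc, Lv.nsmul_congr h1, zero_smul]
  have h2 : Lv.ρ complexConjugation w + (p ^ k - 1) • Lv.ρ complexConjugation w
      = (p ^ k) • Lv.ρ complexConjugation w := by
    conv_rhs => rw [show p ^ k = 1 + (p ^ k - 1) by omega]
    rw [add_smul, one_smul]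
  rw [h2, Lv.pow_smul]

theorem Level.represents_frob (hpS : p ∈ S) {ℓ : ℕ} (hℓ : ℓ.Prime) (hℓS : ℓ ∉ S) {σ : GQ}
    (hσ : IsFrob σ ℓ) : Lv.Represents σ (MvPolynomial.X ℓ) := by
  intro e he w
  have hℓp : ℓ ≠ p := fun h => hℓS (h ▸ hpS)
  have h1 : e ≡ ℓ [MOD p ^ k] := he.modEq (isCyc_frob hℓ hℓp hσ)
  have h2 := Lv.eichlerShimura ℓ hℓ hℓS σ hσ (Lv.ρ σ⁻¹ w)
  rw [Lv.ρ_ρ_inv] at h2
  rw [Lv.nsmul_congr h1]
  have h3 : Lv.ρ σ w + ℓ • Lv.ρ σ⁻¹ w - (MvPolynomial.X ℓ : HA) • w = 0 := by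
    rw [← h2]; abel
  exact sub_eq_zero.1 h3

variable {Lv}

theorem Level.Represents.sub_mem {g : GQ} {P Q : HA} (hP : Lv.Represents g P)
    (hQ : Lv.Represents g Q) :
    MvPolynomial.aeval a P - MvPolynomial.aeval a Q ∈ Ideal.span {((p ^ k : ℕ) : 𝒪)} := by
  obtain ⟨e, he⟩ := exists_isCyc p k g
  rw [← map_sub]
  apply Lv.faithful
  intro w
  rw [sub_smul, ← hP e he w, ← hQ e he w, sub_self]

theorem Level.Represents.comm {g h : GQ} {P : HA} (hP : Lv.Represents (g * h) P) :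
    Lv.Represents (h * g) P := by
  intro e he w
  obtain ⟨eg, heg⟩ := exists_isCyc p k g
  obtain ⟨eh, heh⟩ := exists_isCyc p k h
  have h1 : e ≡ eh * eg [MOD p ^ k] := he.modEq (heh.mul heg)
  have h2 : IsCyc p k (g * h) e :=
    (heg.mul heh).of_modEq (by rw [mul_comm]; exact h1.symm)
  have h3 := hP e h2 (Lv.ρ h⁻¹ w)
  have h4 := congrArg (Lv.ρ h) h3
  rw [map_add, map_nsmul, map_smul, Lv.ρ_ρ_inv] at h4
  rw [← h4]
  congr 1
  · rw [← Lv.ρ_mul_apply, ← Lv.ρ_mul_apply]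
    congr 2
    group
  · rw [← Lv.ρ_mul_apply, ← Lv.ρ_mul_apply]
    congr 3
    group

/-- `t(g) t(h) = t(gh) + ε(h) t(g h⁻¹)` at the level of operators. -/
theorem Level.Represents.mul_mem {g h : GQ} {P Q R R' : HA} {e : ℕ} (hP : Lv.Represents g P)
    (hQ : Lv.Represents h Q) (hR : Lv.Represents (g * h) R) (hR' : Lv.Represents (g * h⁻¹) R')
    (he : IsCyc p k h e) :
    MvPolynomial.aeval a P * MvPolynomial.aeval a Q
      - (MvPolynomial.aeval a R + (e : 𝒪) * MvPolynomial.aeval a R')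
        ∈ Ideal.span {((p ^ k : ℕ) : 𝒪)} := by
  obtain ⟨eg, heg⟩ := exists_isCyc p k g
  obtain ⟨e', he'⟩ := exists_isCyc p k h⁻¹
  have hee' : e * e' ≡ 1 [MOD p ^ k] := he.mul_inv_modEq he'
  have key : ∀ w : Lv.W, (P * Q - (R + MvPolynomial.C (e : ℤ) * R')) • w = 0 := by
    intro w
    have hC : ∀ x : Lv.W, (MvPolynomial.C (e : ℤ) : HA) • x = e • x := by
      intro x
      have : (MvPolynomial.C (e : ℤ) : HA) = (e : HA) := by simp
      rw [this, Nat.cast_smul_eq_nsmul]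
    rw [sub_smul, add_smul, mul_smul, mul_smul, hC]
    -- expand everything
    have e1 := hQ e he w
    have e2 := hP eg heg (Q • w)
    have e3 := hR (eg * e) (heg.mul he) w
    have e4 := hR' (eg * e') (heg.mul he') w
    -- centrality of `Q`
    have e5 := hQ e he (Lv.ρ g⁻¹ w)
    have e6 : Lv.ρ g⁻¹ (Q • w) = Q • Lv.ρ g⁻¹ w := map_smul _ _ _
    have e7 : Lv.ρ g (Q • w) = Lv.ρ g (Lv.ρ h w) + e • Lv.ρ g (Lv.ρ h⁻¹ w) := by
      rw [← e1, map_add, map_nsmul]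
    have e8 : (g * h)⁻¹ = h⁻¹ * g⁻¹ := by group
    have e9 : (g * h⁻¹)⁻¹ = h * g⁻¹ := by group
    rw [e8, Lv.ρ_mul_apply, Lv.ρ_mul_apply] at e3
    rw [e9, Lv.ρ_mul_apply, Lv.ρ_mul_apply] at e4
    have e10 : (e * e') • Lv.ρ h (Lv.ρ g⁻¹ w) = Lv.ρ h (Lv.ρ g⁻¹ w) := by
      rw [Lv.nsmul_congr hee', one_smul]
    rw [← e2, ← e3, ← e4, e6, ← e5, e7]
    have e11 : e • (Lv.ρ g (Lv.ρ h⁻¹ w) + (eg * e') • Lv.ρ h (Lv.ρ g⁻¹ w))
        = e • Lv.ρ g (Lv.ρ h⁻¹ w) + eg • ((e * e') • Lv.ρ h (Lv.ρ g⁻¹ w)) := by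
      module
    rw [e11, e10]
    module
  have := Lv.faithful _ key
  simpa [map_sub, map_add, map_mul] using this

theorem Level.Represents.mul_right {g σ : GQ} {P : HA} (hP : Lv.Represents g P)
    (hσ : Lv.ρ σ = 1) (hσ' : IsCyc p k σ 1) : Lv.Represents (g * σ) P := by
  intro e he w
  obtain ⟨eg, heg⟩ := exists_isCyc p k g
  have h1 : e ≡ eg * 1 [MOD p ^ k] := he.modEq (heg.mul hσ')
  have h2 : IsCyc p k g e := heg.of_modEq (by rw [mul_one] at h1; exact h1.symm)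
  have hσi : Lv.ρ σ⁻¹ = 1 := by
    have : Lv.ρ σ⁻¹ * Lv.ρ σ = 1 := by rw [← map_mul, inv_mul_cancel, map_one]
    rwa [hσ, mul_one] at this
  rw [mul_inv_rev, map_mul, map_mul, hσ, hσi, mul_one, one_mul]
  exact hP e h2 w

/-- the Dickson polynomials. -/
noncomputable def dickson' (ℓ : ℕ) : ℕ → HA
  | 0 => MvPolynomial.C 2
  | 1 => MvPolynomial.X ℓ
  | (b + 2) => MvPolynomial.X ℓ * dickson' ℓ (b + 1) - MvPolynomial.C (ℓ : ℤ) * dickson' ℓ b

/-- if `φ` satisfies the quadratic relation with `X_ℓ` and `ℓ`, every power `φ ^ b` is represented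
by a (Dickson) polynomial which does not depend on the layer. -/
theorem exists_dickson (ℓ b : ℕ) : ∃ P : HA, ∀ (N p : ℕ) [Fact p.Prime] (S : Finset ℕ)
    (𝒪 : Type) [CommRing 𝒪] (a : ℕ → 𝒪) (k : ℕ) (Lv : Level N p S a k) (φ : GQ),
    Lv.Represents φ (MvPolynomial.X ℓ) → IsCyc p k φ ℓ → Lv.Represents (φ ^ b) P := by
  refine ⟨dickson' ℓ b, ?_⟩
  intro N p _ S 𝒪 _ a k Lv φ hφ hcyc
  have hC : ∀ x : Lv.W, (MvPolynomial.C (ℓ : ℤ) : HA) • x = ℓ • x := by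
    intro x
    have : (MvPolynomial.C (ℓ : ℤ) : HA) = (ℓ : HA) := by simp
    rw [this, Nat.cast_smul_eq_nsmul]
  have main : ∀ b : ℕ, ∀ w : Lv.W,
      Lv.ρ (φ ^ b) w + (ℓ ^ b) • Lv.ρ (φ ^ b)⁻¹ w = dickson' ℓ b • w := by
    intro b
    induction b using Nat.twoStepInduction with
    | zero =>
      intro w
      have : (MvPolynomial.C 2 : HA) = 2 := by simp
      simp only [pow_zero, inv_one, map_one, Module.End.one_apply, one_smul, dickson', this,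
        two_smul]
    | one =>
      intro w
      simpa only [pow_one, dickson'] using hφ ℓ hcyc w
    | more b ih0 ih1 =>
      intro w
      have hd : dickson' ℓ (b + 2) • w
          = (MvPolynomial.X ℓ : HA) • (dickson' ℓ (b + 1) • w) - ℓ • (dickson' ℓ b • w) := by
        rw [dickson', sub_smul, mul_smul, mul_smul, hC]
      rw [hd, ← ih0 w, ← ih1 w, ← hφ ℓ hcyc]
      have a1 : Lv.ρ φ (Lv.ρ (φ ^ (b + 1)) w) = Lv.ρ (φ ^ (b + 2)) w := by
        rw [← Lv.ρ_mul_apply]; congr 2; group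
      have a2 : Lv.ρ φ (Lv.ρ (φ ^ (b + 1))⁻¹ w) = Lv.ρ (φ ^ b)⁻¹ w := by
        rw [← Lv.ρ_mul_apply]; congr 2
        rw [pow_succ, mul_inv_rev, mul_inv_cancel_left]
      have a3 : Lv.ρ φ⁻¹ (Lv.ρ (φ ^ (b + 1)) w) = Lv.ρ (φ ^ b) w := by
        rw [← Lv.ρ_mul_apply]; congr 2
        rw [pow_succ', inv_mul_cancel_left]
      have a4 : Lv.ρ φ⁻¹ (Lv.ρ (φ ^ (b + 1))⁻¹ w) = Lv.ρ (φ ^ (b + 2))⁻¹ w := by
        rw [← Lv.ρ_mul_apply, ← mul_inv_rev, ← pow_succ]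
      rw [map_add, map_add, map_nsmul, map_nsmul, a1, a2, a3, a4]
      module
  intro e he w
  have h1 : e ≡ ℓ ^ b [MOD p ^ k] := he.modEq (hcyc.pow b)
  rw [Lv.nsmul_congr h1]
  exact main b w

/-- `Represents` only depends on the image of `g` in a finite quotient. -/
theorem Level.Represents.congr {g h : GQ} {P : HA} (hP : Lv.Represents g P)
    (hρ : Lv.ρ h = Lv.ρ g)
    (hμ : ∀ μ : AlgebraicClosure ℚ, μ ^ p ^ k = 1 → h μ = g μ) : Lv.Represents h P := by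
  intro e he w
  have h1 : IsCyc p k g e := he.congr (fun μ hμ1 => (hμ μ hμ1).symm)
  have hinv : Lv.ρ h⁻¹ = Lv.ρ g⁻¹ := by
    have e1 : Lv.ρ h⁻¹ * Lv.ρ h = 1 := by rw [← map_mul, inv_mul_cancel, map_one]
    have e2 : Lv.ρ g * Lv.ρ g⁻¹ = 1 := by rw [← map_mul, mul_inv_cancel, map_one]
    calc Lv.ρ h⁻¹ = Lv.ρ h⁻¹ * (Lv.ρ g * Lv.ρ g⁻¹) := by rw [e2, mul_one]
      _ = (Lv.ρ h⁻¹ * Lv.ρ h) * Lv.ρ g⁻¹ := by rw [hρ, mul_assoc]
      _ = Lv.ρ g⁻¹ := by rw [e1, one_mul]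
  rw [hρ, hinv]
  exact hP e h1 w

end Fermat.Agent.S30
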