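/-
S30 top (skeleton by helper216).  TASK S30-P03 (owner helper193).
Every `g` is represented by a polynomial, simultaneously on two layers (weak Chebotarev).
-/
import Fermat.Agent.S30.Represents

set_option autoImplicit false
set_option linter.style.haveILetI false

namespace Fermat.Agent.S30

variable {N p : ℕ} [Fact p.Prime] {S : Finset ℕ} {𝒪 : Type} [CommRing 𝒪] {a : ℕ → 𝒪}

/-- two elements of `G_ℚ` which agree on a field of definition of a layer act in the same way. -/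
theorem Level.ρ_eq_of_agree {k : ℕ} (Lv : Level N p S a k)
    {L : IntermediateField ℚ (AlgebraicClosure ℚ)}
    (hL : ∀ σ : GQ, (∀ x ∈ L, σ x = x) → Lv.ρ σ = 1) {g h : GQ} (hgh : ∀ x ∈ L, h x = g x) :
    Lv.ρ g = Lv.ρ h := by
  have h1 : Lv.ρ (h⁻¹ * g) = 1 := by
    apply hL
    intro x hx
    rw [AlgEquiv.mul_apply, ← hgh x hx]
    exact h.symm_apply_apply x
  have h2 : g = h * (h⁻¹ * g) := by group
  rw [h2, map_mul, h1, mul_one]

/-- transfer of `Represents` along agreement on a field containing a field of definition of the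
layer and the relevant roots of unity. -/
theorem Level.Represents.of_agree {k : ℕ} {Lv : Level N p S a k}
    {L : IntermediateField ℚ (AlgebraicClosure ℚ)}
    (hL : ∀ σ : GQ, (∀ x ∈ L, σ x = x) → Lv.ρ σ = 1)
    (hμ : ∀ μ : AlgebraicClosure ℚ, μ ^ p ^ k = 1 → μ ∈ L) {g h : GQ} {P : HA}
    (hP : Lv.Represents h P) (hgh : ∀ x ∈ L, h x = g x) : Lv.Represents g P :=
  hP.congr (Lv.ρ_eq_of_agree hL hgh) fun μ h1 => (hgh μ (hμ μ h1)).symm

theorem exists_represents₂ (wc : WeakCheb) (hpS : p ∈ S) {k k' : ℕ} (Lv : Level N p S a k)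
    (Lv' : Level N p S a k') (g : GQ) : ∃ P : HA, Lv.Represents g P ∧ Lv'.Represents g P := by
  obtain ⟨L1, hL1fin, hL1⟩ := Lv.finiteLevel
  obtain ⟨L2, hL2fin, hL2⟩ := Lv'.finiteLevel
  obtain ⟨Lc, hLcfin, hLc⟩ := exists_cycloField p (max k k')
  haveI := hL1fin
  haveI := hL2fin
  haveI := hLcfin
  haveI : FiniteDimensional ℚ ↥(L1 ⊔ L2) := IntermediateField.finiteDimensional_sup L1 L2
  haveI : FiniteDimensional ℚ ↥(L1 ⊔ L2 ⊔ Lc) := IntermediateField.finiteDimensional_sup _ Lc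
  obtain ⟨ℓ, A, φ, a', b, hℓ, hℓS, hA, hFr, -, h2⟩ := wc (L1 ⊔ L2 ⊔ Lc) g S
  have hFrob : IsFrob φ ℓ := ⟨A, hA, hFr⟩
  have hℓp : ℓ ≠ p := fun h => hℓS (h ▸ hpS)
  have le1 : L1 ≤ L1 ⊔ L2 ⊔ Lc := le_sup_left.trans le_sup_left
  have le2 : L2 ≤ L1 ⊔ L2 ⊔ Lc := le_sup_right.trans le_sup_left
  have lec : Lc ≤ L1 ⊔ L2 ⊔ Lc := le_sup_right
  have hroot : ∀ j : ℕ, j ≤ max k k' → ∀ μ : AlgebraicClosure ℚ, μ ^ p ^ j = 1 →
      μ ∈ L1 ⊔ L2 ⊔ Lc := by
    intro j hj μ hμ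
    apply lec
    apply hLc
    obtain ⟨c, hc⟩ := Nat.exists_eq_add_of_le hj
    rw [hc, pow_add, pow_mul, hμ, one_pow]
  obtain ⟨P, hP⟩ := exists_dickson ℓ b
  refine ⟨P, ?_, ?_⟩
  · exact (hP N p S 𝒪 a k Lv φ (Lv.represents_frob hpS hℓ hℓS hFrob)
      (isCyc_frob hℓ hℓp hFrob)).of_agree
      (fun σ hσ => hL1 σ fun x hx => hσ x (le1 hx)) (hroot k (le_max_left _ _)) h2
  · exact (hP N p S 𝒪 a k' Lv' φ (Lv'.represents_frob hpS hℓ hℓS hFrob)
      (isCyc_frob hℓ hℓp hFrob)).of_agree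
      (fun σ hσ => hL2 σ fun x hx => hσ x (le2 hx)) (hroot k' (le_max_right _ _)) h2

theorem exists_represents (wc : WeakCheb) (hpS : p ∈ S) {k : ℕ} (Lv : Level N p S a k) (g : GQ) :
    ∃ P : HA, Lv.Represents g P :=
  (exists_represents₂ wc hpS Lv Lv g).imp fun _ h => h.1

end Fermat.Agent.S30
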