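/-
S30 top (skeleton by helper216).  TASK S30-P04.
The limit pseudo-character `t : G_ℚ → 𝒪`.
-/
import Fermat.Agent.S30.Density

set_option autoImplicit false

namespace Fermat.Agent.S30

open IsLocalRing

variable {N p : ℕ} [Fact p.Prime] {S : Finset ℕ} {𝒪 : Type} [CommRing 𝒪] [IsLocalRing 𝒪]
  [IsAdicComplete (maximalIdeal 𝒪) 𝒪] {a : ℕ → 𝒪}

theorem span_pow_le (hp : (p : 𝒪) ∈ maximalIdeal 𝒪) (k : ℕ) :
    Ideal.span {((p ^ k : ℕ) : 𝒪)} ≤ maximalIdeal 𝒪 ^ k := by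
  rw [Ideal.span_singleton_le_iff_mem, Nat.cast_pow]
  exact Ideal.pow_mem_pow hp k

omit [IsLocalRing 𝒪] [IsAdicComplete (maximalIdeal 𝒪) 𝒪] in
private lemma smodEq_iff {I : Ideal 𝒪} {x y : 𝒪} :
    x ≡ y [SMOD (I • ⊤ : Submodule 𝒪 𝒪)] ↔ x - y ∈ I := by
  rw [SModEq.sub_mem, smul_eq_mul, Ideal.mul_top]

theorem eq_of_forall_sub_mem {x y : 𝒪} (h : ∀ k : ℕ, x - y ∈ maximalIdeal 𝒪 ^ k) : x = y := by
  have hH : IsHausdorff (maximalIdeal 𝒪) 𝒪 := IsAdicComplete.toIsHausdorff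
  have := hH.haus' (x - y) fun n => by
    rw [smodEq_iff, sub_zero]
    exact h n
  exact sub_eq_zero.mp this

theorem exists_t (wc : WeakCheb) (hpS : p ∈ S) (hp : (p : 𝒪) ∈ maximalIdeal 𝒪)
    (tower : ∀ k, Level N p S a k) :
    ∃ t : GQ → 𝒪, ∀ (k : ℕ) (g : GQ) (P : HA), (tower k).Represents g P →
      t g - MvPolynomial.aeval a P ∈ maximalIdeal 𝒪 ^ k := by
  have hPre : IsPrecomplete (maximalIdeal 𝒪) 𝒪 := IsAdicComplete.toIsPrecomplete
  choose P hP using fun (g : GQ) (k : ℕ) => exists_represents wc hpS (tower k) g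
  have hlim : ∀ g : GQ, ∃ L : 𝒪, ∀ n : ℕ,
      MvPolynomial.aeval a (P g n) - L ∈ maximalIdeal 𝒪 ^ n := by
    intro g
    obtain ⟨L, hL⟩ := hPre.prec' (fun n => MvPolynomial.aeval a (P g n)) (by
      intro m n hmn
      rw [smodEq_iff]
      obtain ⟨Q, hQ1, hQ2⟩ := exists_represents₂ wc hpS (tower m) (tower n) g
      have h1 := span_pow_le hp m ((hP g m).sub_mem hQ1)
      have h2 := Ideal.pow_le_pow_right hmn (span_pow_le hp n ((hP g n).sub_mem hQ2))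
      have := Ideal.sub_mem _ h1 h2
      simpa using this)
    exact ⟨L, fun n => smodEq_iff.mp (hL n)⟩
  choose t ht using hlim
  refine ⟨t, fun k g Q hQ => ?_⟩
  have h1 := span_pow_le hp k ((hP g k).sub_mem hQ)
  have h2 := ht g k
  have := Ideal.sub_mem _ h1 h2
  simpa using this

end Fermat.Agent.S30
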