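/-
S30 top (skeleton by helper216).  TASK S30-P06 (proofs: helper94).
Abstract algebra behind Wiles' construction: an algebra `R` over a field `K` (char ≠ 2) with a
trace `T`, an anti-involution `star` with `T x * T y = T (x y) + T (x * star y)`, and an idempotent
`e` with `star e = 1 - e`.
-/
import Mathlib

set_option autoImplicit false

namespace Fermat.Agent.S30

/-- A "Cayley-Hamilton algebra of degree two", presented by its trace and its involution. -/
structure CH2 (K R : Type*) [Field K] [Ring R] [Algebra K R] where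
  T : R →ₗ[K] K
  star : R →ₗ[K] R
  star_one : star 1 = 1
  star_mul : ∀ x y : R, star (x * y) = star y * star x
  T_one : T 1 = 2
  T_comm : ∀ x y : R, T (x * y) = T (y * x)
  T_mul : ∀ x y : R, T x * T y = T (x * y) + T (x * star y)

namespace CH2

variable {K R : Type*} [Field K] [Ring R] [Algebra K R] (c : CH2 K R) (e : R)

/-- upper left entry. -/
def A (x : R) : K := c.T (e * x)

/-- lower right entry. -/
def D (x : R) : K := c.T ((1 - e) * x)

/-- product of the off-diagonal entries of `x` (upper right) and `y` (lower left). -/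
def X (x y : R) : K := c.T (e * x * (1 - e) * y)

variable {e}

theorem T_star (x : R) : c.T (c.star x) = c.T x := by
  have h := c.T_mul 1 x
  rw [c.T_one, one_mul, one_mul] at h
  linear_combination -h

/-- the key identity `e x e = T (e x) e` (tested against `T`). -/
theorem T_eee (he : e * e = e) (hs : c.star e = 1 - e) (x y : R) :
    c.T (e * x * e * y) = c.T (e * x) * c.T (e * y) := by
  have h := c.T_mul (e * x) (e * y)
  rw [c.star_mul, hs] at h
  have h1 : c.T (e * x * (c.star y * (1 - e))) = 0 := by
    rw [← mul_assoc, c.T_comm]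
    have : (1 - e) * (e * x * c.star y) = 0 := by
      rw [← mul_assoc, ← mul_assoc, sub_mul, one_mul, he, sub_self, zero_mul, zero_mul]
    rw [this, map_zero]
  rw [h1, add_zero] at h
  rw [h, mul_assoc (e * x) e y]

theorem one_sub_idem (he : e * e = e) : (1 - e) * (1 - e) = 1 - e := by
  rw [sub_mul, mul_sub, mul_sub, one_mul, mul_one, one_mul, he, sub_self, sub_zero]

theorem star_one_sub (hs : c.star e = 1 - e) : c.star (1 - e) = 1 - (1 - e) := by
  rw [map_sub, c.star_one, hs]

/-- the key identity for the complementary idempotent. -/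
theorem T_fff (he : e * e = e) (hs : c.star e = 1 - e) (x y : R) :
    c.T ((1 - e) * x * (1 - e) * y) = c.T ((1 - e) * x) * c.T ((1 - e) * y) :=
  c.T_eee (one_sub_idem he) (c.star_one_sub hs) x y

theorem A_add_D (x : R) : c.A e x + c.D e x = c.T x := by
  unfold A D
  rw [← map_add, ← add_mul, add_sub_cancel, one_mul]

theorem T_e (h2 : (2 : K) ≠ 0) (hs : c.star e = 1 - e) : c.T e = 1 := by
  have h := c.T_star e
  rw [hs, map_sub, c.T_one] at h
  have h3 : (2 : K) * c.T e = 2 * 1 := by linear_combination -h
  exact mul_left_cancel₀ h2 h3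

theorem A_one (h2 : (2 : K) ≠ 0) (hs : c.star e = 1 - e) : c.A e 1 = 1 := by
  unfold A
  rw [mul_one]
  exact c.T_e h2 hs

theorem D_one (h2 : (2 : K) ≠ 0) (hs : c.star e = 1 - e) : c.D e 1 = 1 := by
  have h := c.A_add_D (e := e) 1
  rw [c.A_one h2 hs, c.T_one] at h
  linear_combination h

theorem X_one_left (he : e * e = e) (y : R) : c.X e 1 y = 0 := by
  unfold X
  rw [mul_one, mul_sub, mul_one, he, sub_self, zero_mul, map_zero]

theorem X_one_right (he : e * e = e) (x : R) : c.X e x 1 = 0 := by
  unfold X
  rw [mul_one, c.T_comm, ← mul_assoc, sub_mul, one_mul, he, sub_self, zero_mul, map_zero]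

theorem A_mul (he : e * e = e) (hs : c.star e = 1 - e) (x y : R) :
    c.A e (x * y) = c.A e x * c.A e y + c.X e x y := by
  unfold A X
  rw [← c.T_eee he hs, ← map_add]
  congr 1
  noncomm_ring

/-- `T (f x e y) = X y x` -/
theorem T_fxey (x y : R) : c.T ((1 - e) * x * e * y) = c.X e y x := by
  unfold X
  rw [mul_assoc ((1 - e) * x) e y, c.T_comm, ← mul_assoc]

theorem D_mul (he : e * e = e) (hs : c.star e = 1 - e) (x y : R) :
    c.D e (x * y) = c.D e x * c.D e y + c.X e y x := by
  rw [← c.T_fxey]
  unfold D
  rw [← c.T_fff he hs, ← map_add]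
  congr 1
  noncomm_ring

theorem X_mul_left (he : e * e = e) (hs : c.star e = 1 - e) (x y z : R) :
    c.X e (x * y) z = c.A e x * c.X e y z + c.D e y * c.X e x z := by
  have h1 : c.A e x * c.X e y z = c.T (e * x * e * (y * (1 - e) * z)) := by
    rw [c.T_eee he hs]
    unfold A X
    rw [← mul_assoc, ← mul_assoc]
  have h2 : c.D e y * c.X e x z = c.T (e * x * (1 - e) * y * (1 - e) * z) := by
    rw [← c.T_fxey z x]
    unfold D
    have h3 := c.T_fff he hs y (z * e * x)
    rw [show (1 - e) * (z * e * x) = (1 - e) * z * e * x by noncomm_ring] at h3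
    rw [← h3, c.T_comm ((1 - e) * y * (1 - e)) (z * e * x),
      show z * e * x * ((1 - e) * y * (1 - e)) = z * (e * x * (1 - e) * y * (1 - e)) by
        noncomm_ring, c.T_comm]
  rw [h1, h2, ← map_add]
  unfold X
  congr 1
  noncomm_ring

theorem X_mul_right (he : e * e = e) (hs : c.star e = 1 - e) (x y z : R) :
    c.X e z (x * y) = c.A e y * c.X e z x + c.D e x * c.X e z y := by
  have h1 : c.A e y * c.X e z x = c.T (e * z * (1 - e) * x * e * y) := by
    have h3 := c.T_eee he hs y (z * (1 - e) * x)
    rw [show e * (z * (1 - e) * x) = e * z * (1 - e) * x by noncomm_ring] at h3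
    unfold A X
    rw [← h3, c.T_comm (e * y * e) (z * (1 - e) * x),
      show z * (1 - e) * x * (e * y * e) = (z * (1 - e) * x * e * y) * e by noncomm_ring,
      c.T_comm]
    congr 1
    noncomm_ring
  have h2 : c.D e x * c.X e z y = c.T (e * z * (1 - e) * x * (1 - e) * y) := by
    rw [← c.T_fxey y z]
    unfold D
    have h3 := c.T_fff he hs x (y * e * z)
    rw [show (1 - e) * (y * e * z) = (1 - e) * y * e * z by noncomm_ring] at h3
    rw [← h3, show (1 - e) * x * (1 - e) * (y * e * z) = ((1 - e) * x * (1 - e) * y) * (e * z) by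
      noncomm_ring, c.T_comm]
    congr 1
    noncomm_ring
  rw [h1, h2, ← map_add]
  unfold X
  congr 1
  noncomm_ring

theorem X_swap (he : e * e = e) (hs : c.star e = 1 - e) (x y x' y' : R) :
    c.X e x y * c.X e x' y' = c.X e x y' * c.X e x' y := by
  have h1 : c.X e x y * c.X e x' y' = c.T (e * (x * (1 - e) * y) * e * (x' * (1 - e) * y')) := by
    rw [c.T_eee he hs]
    unfold X
    congr 2 <;> noncomm_ring
  have h2 : c.X e x y' * c.X e x' y =
      c.T ((1 - e) * (y' * e * x) * (1 - e) * (y * e * x')) := by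
    rw [c.T_fff he hs, ← c.T_fxey y' x, ← c.T_fxey y x']
    congr 2 <;> noncomm_ring
  rw [h1, h2,
    show e * (x * (1 - e) * y) * e * (x' * (1 - e) * y')
      = (e * x) * ((1 - e) * y * e * x' * (1 - e) * y') by noncomm_ring, c.T_comm,
    show (1 - e) * y * e * x' * (1 - e) * y' * (e * x)
      = ((1 - e) * y * e * x') * ((1 - e) * y' * e * x) by noncomm_ring, c.T_comm]
  congr 1
  calc (1 - e) * y' * e * x * ((1 - e) * y * e * x')
      = (1 - e) * (y' * e * x) * (1 - e) * (y * e * x') := by noncomm_ring

/-- the determinant. -/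
theorem A_mul_D_sub_X (h2 : (2 : K) ≠ 0) (he : e * e = e) (hs : c.star e = 1 - e) (x : R) (n : K)
    (hx : x * c.star x = algebraMap K R n) : c.A e x * c.D e x - c.X e x x = n := by
  have h := c.T_mul (e * x) ((1 - e) * x)
  rw [c.star_mul, c.star_one_sub hs, sub_sub_cancel] at h
  have h1 : c.T (e * x * (c.star x * e)) = n := by
    rw [show e * x * (c.star x * e) = e * (x * c.star x) * e by noncomm_ring, hx, c.T_comm,
      ← mul_assoc, he, ← Algebra.commutes, ← Algebra.smul_def, map_smul, c.T_e h2 hs, smul_eq_mul,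
      mul_one]
  unfold A D X
  rw [h, h1, show e * x * ((1 - e) * x) = e * x * (1 - e) * x by noncomm_ring]
  ring

end CH2

end Fermat.Agent.S30
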