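/-
S30 top (skeleton by helper216).  TASK S30-P07 (proofs by helper38).
Wiles' functions `A, D, X` attached to an odd two-dimensional pseudo-character of a group.
-/
import Fermat.Agent.S30.WilesAlg

set_option autoImplicit false

namespace Fermat.Agent.S30

/-- An odd two-dimensional pseudo-character `(t, ε)` of a group `G` with values in a field. -/
structure OddPseudo (G K : Type*) [Group G] [Field K] where
  t : G → K
  ε : G →* Kˣ
  c : G
  c_mul_c : c * c = 1
  t_one : t 1 = 2
  t_comm : ∀ g h : G, t (g * h) = t (h * g)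
  t_mul : ∀ g h : G, t g * t h = t (g * h) + (ε h : K) * t (g * h⁻¹)
  t_c : t c = 0
  ε_c : ε c = -1

namespace OddPseudo

variable {G K : Type*} [Group G] [Field K] (ps : OddPseudo G K)

/-- upper left entry. -/
noncomputable def A (g : G) : K := (ps.t g + ps.t (ps.c * g)) / 2

/-- lower right entry. -/
noncomputable def D (g : G) : K := (ps.t g - ps.t (ps.c * g)) / 2

/-- product of off-diagonal entries. -/
noncomputable def X (g h : G) : K := ps.A (g * h) - ps.A g * ps.A h

/-- linear extension of `t` to the group algebra. -/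
noncomputable def TLin : MonoidAlgebra K G →ₗ[K] K :=
  (Finsupp.linearCombination K ps.t) ∘ₗ (MonoidAlgebra.coeffLinearEquiv K).toLinearMap

/-- linear extension of `g ↦ ε g • g⁻¹` to the group algebra. -/
noncomputable def starLin : MonoidAlgebra K G →ₗ[K] MonoidAlgebra K G :=
  (Finsupp.linearCombination K (fun g : G => (ps.ε g : K) • MonoidAlgebra.of K G g⁻¹)) ∘ₗ
    (MonoidAlgebra.coeffLinearEquiv K).toLinearMap

theorem TLin_of (g : G) : ps.TLin (MonoidAlgebra.of K G g) = ps.t g := by
  simp [TLin, MonoidAlgebra.of_apply]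

theorem starLin_of (g : G) :
    ps.starLin (MonoidAlgebra.of K G g) = (ps.ε g : K) • MonoidAlgebra.of K G g⁻¹ := by
  simp [starLin, MonoidAlgebra.of_apply]

/-- the structure `CH2` on the group algebra: `T (∑ a_g g) = ∑ a_g t g`,
`star (∑ a_g g) = ∑ a_g ε(g) g⁻¹`. -/
theorem exists_CH2 : ∃ c : CH2 K (MonoidAlgebra K G),
    (∀ g : G, c.T (MonoidAlgebra.of K G g) = ps.t g) ∧
    (∀ g : G, c.star (MonoidAlgebra.of K G g) = (ps.ε g : K) • MonoidAlgebra.of K G g⁻¹) := by
  refine ⟨{ T := ps.TLin
            star := ps.starLin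
            star_one := ?_
            star_mul := ?_
            T_one := ?_
            T_comm := ?_
            T_mul := ?_ }, ps.TLin_of, ps.starLin_of⟩
  · have h := ps.starLin_of 1
    have e1 : MonoidAlgebra.of K G 1 = 1 := map_one _
    have e2 : ((ps.ε 1 : Kˣ) : K) = 1 := by rw [map_one, Units.val_one]
    rw [inv_one, e1, e2, one_smul] at h
    exact h
  · intro x y
    induction x using MonoidAlgebra.induction_on with
    | of g =>
      induction y using MonoidAlgebra.induction_on with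
      | of h =>
        rw [← map_mul, starLin_of, starLin_of, starLin_of, map_mul, mul_inv_rev, map_mul,
          smul_mul_smul_comm, Units.val_mul, mul_comm (ps.ε g : K)]
      | add y₁ y₂ h₁ h₂ => rw [mul_add, map_add, map_add, add_mul, h₁, h₂]
      | smul r y h => rw [mul_smul_comm, map_smul, map_smul, smul_mul_assoc, h]
    | add x₁ x₂ h₁ h₂ => rw [add_mul, map_add, map_add, mul_add, h₁, h₂]
    | smul r x h => rw [smul_mul_assoc, map_smul, map_smul, mul_smul_comm, h]
  · have h := ps.TLin_of 1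
    rw [map_one] at h
    rw [h, ps.t_one]
  · intro x y
    induction x using MonoidAlgebra.induction_on with
    | of g =>
      induction y using MonoidAlgebra.induction_on with
      | of h => rw [← map_mul, ← map_mul, TLin_of, TLin_of, ps.t_comm]
      | add y₁ y₂ h₁ h₂ => rw [mul_add, add_mul, map_add, map_add, h₁, h₂]
      | smul r y h => rw [mul_smul_comm, smul_mul_assoc, map_smul, map_smul, h]
    | add x₁ x₂ h₁ h₂ => rw [mul_add, add_mul, map_add, map_add, h₁, h₂]
    | smul r x h => rw [mul_smul_comm, smul_mul_assoc, map_smul, map_smul, h]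
  · intro x y
    induction x using MonoidAlgebra.induction_on with
    | of g =>
      induction y using MonoidAlgebra.induction_on with
      | of h =>
        have e1 : MonoidAlgebra.of K G g * MonoidAlgebra.of K G h = MonoidAlgebra.of K G (g * h) :=
          (map_mul _ _ _).symm
        have e2 : MonoidAlgebra.of K G g * MonoidAlgebra.of K G h⁻¹ =
            MonoidAlgebra.of K G (g * h⁻¹) := (map_mul _ _ _).symm
        rw [starLin_of, mul_smul_comm, map_smul, e1, e2, TLin_of, TLin_of, TLin_of,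
          TLin_of, smul_eq_mul, ps.t_mul]
      | add y₁ y₂ h₁ h₂ =>
        simp only [map_add, mul_add]
        rw [h₁, h₂]
        ring
      | smul r y h =>
        simp only [map_smul, mul_smul_comm, smul_eq_mul]
        rw [mul_left_comm, h, mul_add]
    | add x₁ x₂ h₁ h₂ =>
      simp only [map_add, add_mul]
      rw [h₁, h₂]
      ring
    | smul r x h =>
      simp only [map_smul, smul_mul_assoc, smul_eq_mul]
      rw [mul_assoc, h, mul_add]

variable (h2 : (2 : K) ≠ 0)

/-- The idempotent `(1 + c) / 2` of the group algebra. -/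
noncomputable def idem : MonoidAlgebra K G :=
  (2 : K)⁻¹ • (1 + MonoidAlgebra.of K G ps.c)

include h2 in
theorem idem_mul_idem : ps.idem * ps.idem = ps.idem := by
  have hc : MonoidAlgebra.of K G ps.c * MonoidAlgebra.of K G ps.c = 1 := by
    rw [← map_mul, ps.c_mul_c, map_one]
  unfold idem
  rw [smul_mul_smul_comm]
  have h : (1 + MonoidAlgebra.of K G ps.c) * (1 + MonoidAlgebra.of K G ps.c) =
      (2 : K) • (1 + MonoidAlgebra.of K G ps.c) := by
    rw [add_mul, mul_add, mul_add, hc, one_mul, mul_one, one_mul, two_smul]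
    abel
  rw [h, smul_smul, mul_assoc, inv_mul_cancel₀ h2, mul_one]

theorem c_inv : ps.c⁻¹ = ps.c := inv_eq_of_mul_eq_one_left ps.c_mul_c

include h2 in
theorem star_idem (c : CH2 K (MonoidAlgebra K G))
    (hstar : ∀ g : G, c.star (MonoidAlgebra.of K G g) =
      (ps.ε g : K) • MonoidAlgebra.of K G g⁻¹) : c.star ps.idem = 1 - ps.idem := by
  apply eq_sub_of_add_eq
  unfold idem
  rw [map_smul, map_add, c.star_one, hstar, ps.ε_c, ps.c_inv, ← smul_add]
  have h1 : (1 + ((-1 : Kˣ) : K) • MonoidAlgebra.of K G ps.c) + (1 + MonoidAlgebra.of K G ps.c) =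
      (2 : K) • (1 : MonoidAlgebra K G) := by
    rw [Units.val_neg, Units.val_one, neg_smul, one_smul, two_smul]
    abel
  rw [h1, smul_smul, inv_mul_cancel₀ h2, one_smul]

theorem A_eq (c : CH2 K (MonoidAlgebra K G))
    (hT : ∀ g : G, c.T (MonoidAlgebra.of K G g) = ps.t g) (g : G) :
    ps.A g = c.A ps.idem (MonoidAlgebra.of K G g) := by
  unfold A CH2.A idem
  rw [smul_mul_assoc, map_smul, add_mul, one_mul, ← map_mul, map_add, hT, hT, smul_eq_mul,
    div_eq_inv_mul]

include h2 in
theorem D_eq (c : CH2 K (MonoidAlgebra K G))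
    (hT : ∀ g : G, c.T (MonoidAlgebra.of K G g) = ps.t g) (g : G) :
    ps.D g = c.D ps.idem (MonoidAlgebra.of K G g) := by
  have hA := ps.A_eq c hT g
  unfold CH2.A at hA
  unfold CH2.D
  rw [sub_mul, one_mul, map_sub, hT, ← hA]
  unfold A D
  field_simp
  ring

include h2 in
theorem X_eq (c : CH2 K (MonoidAlgebra K G))
    (hT : ∀ g : G, c.T (MonoidAlgebra.of K G g) = ps.t g)
    (hstar : ∀ g : G, c.star (MonoidAlgebra.of K G g) =
      (ps.ε g : K) • MonoidAlgebra.of K G g⁻¹) (g h : G) :
    ps.X g h = c.X ps.idem (MonoidAlgebra.of K G g) (MonoidAlgebra.of K G h) := by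
  unfold X
  rw [ps.A_eq c hT, ps.A_eq c hT, ps.A_eq c hT, map_mul,
    c.A_mul (ps.idem_mul_idem h2) (ps.star_idem h2 c hstar)]
  ring

include h2

theorem A_add_D (g : G) : ps.A g + ps.D g = ps.t g := by
  unfold A D
  field_simp
  ring

theorem A_one : ps.A 1 = 1 := by
  unfold A
  rw [mul_one, ps.t_one, ps.t_c, add_zero, div_self h2]

theorem D_one : ps.D 1 = 1 := by
  unfold D
  rw [mul_one, ps.t_one, ps.t_c, sub_zero, div_self h2]

theorem X_one_left (g : G) : ps.X 1 g = 0 := by
  unfold X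
  rw [one_mul, ps.A_one h2, one_mul, sub_self]

theorem X_one_right (g : G) : ps.X g 1 = 0 := by
  unfold X
  rw [mul_one, ps.A_one h2, mul_one, sub_self]

theorem D_mul (g h : G) : ps.D (g * h) = ps.D g * ps.D h + ps.X h g := by
  obtain ⟨c, hT, hstar⟩ := ps.exists_CH2
  rw [ps.D_eq h2 c hT, ps.D_eq h2 c hT, ps.D_eq h2 c hT, ps.X_eq h2 c hT hstar, map_mul]
  exact c.D_mul (ps.idem_mul_idem h2) (ps.star_idem h2 c hstar) _ _

theorem X_mul_left (g h k : G) :
    ps.X (g * h) k = ps.A g * ps.X h k + ps.D h * ps.X g k := by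
  obtain ⟨c, hT, hstar⟩ := ps.exists_CH2
  rw [ps.D_eq h2 c hT, ps.A_eq c hT, ps.X_eq h2 c hT hstar, ps.X_eq h2 c hT hstar,
    ps.X_eq h2 c hT hstar, map_mul]
  exact c.X_mul_left (ps.idem_mul_idem h2) (ps.star_idem h2 c hstar) _ _ _

theorem X_mul_right (g h k : G) :
    ps.X k (g * h) = ps.A h * ps.X k g + ps.D g * ps.X k h := by
  obtain ⟨c, hT, hstar⟩ := ps.exists_CH2
  rw [ps.D_eq h2 c hT, ps.A_eq c hT, ps.X_eq h2 c hT hstar, ps.X_eq h2 c hT hstar,
    ps.X_eq h2 c hT hstar, map_mul]
  exact c.X_mul_right (ps.idem_mul_idem h2) (ps.star_idem h2 c hstar) _ _ _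

theorem X_swap (g h g' h' : G) : ps.X g h * ps.X g' h' = ps.X g h' * ps.X g' h := by
  obtain ⟨c, hT, hstar⟩ := ps.exists_CH2
  rw [ps.X_eq h2 c hT hstar, ps.X_eq h2 c hT hstar, ps.X_eq h2 c hT hstar, ps.X_eq h2 c hT hstar]
  exact c.X_swap (ps.idem_mul_idem h2) (ps.star_idem h2 c hstar) _ _ _ _

theorem A_mul_D_sub_X (g : G) : ps.A g * ps.D g - ps.X g g = (ps.ε g : K) := by
  obtain ⟨c, hT, hstar⟩ := ps.exists_CH2
  rw [ps.D_eq h2 c hT, ps.A_eq c hT, ps.X_eq h2 c hT hstar]
  refine c.A_mul_D_sub_X h2 (ps.idem_mul_idem h2) (ps.star_idem h2 c hstar) _ _ ?_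
  rw [hstar, mul_smul_comm, ← map_mul, mul_inv_cancel, map_one, Algebra.algebraMap_eq_smul_one]

end OddPseudo

end Fermat.Agent.S30
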