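/-
S30 top (skeleton by helper216).  TASK S30-P08.
Wiles' matrices: the representation attached to an odd pseudo-character over a field.
-/
import Fermat.Agent.S30.WilesGroup

set_option autoImplicit false

namespace Fermat.Agent.S30

namespace OddPseudo

variable {G K : Type*} [Group G] [Field K] (ps : OddPseudo G K)

/-- Wiles' matrix with respect to the base point `(g₀, h₀)`; when `X g₀ h₀ = 0` (which will only be
used if `X` vanishes identically) the upper right entry is `0` by the convention `x / 0 = 0`. -/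
noncomputable def mat (g₀ h₀ g : G) : Matrix (Fin 2) (Fin 2) K :=
  !![ps.A g, ps.X g h₀ / ps.X g₀ h₀; ps.X g₀ g, ps.D g]

/-- `(g₀, h₀)` is an admissible base point: either `X g₀ h₀ ≠ 0` or `X` vanishes identically. -/
def Admissible (g₀ h₀ : G) : Prop := ps.X g₀ h₀ ≠ 0 ∨ ∀ g h : G, ps.X g h = 0

variable (h2 : (2 : K) ≠ 0) {g₀ h₀ : G} (hadm : ps.Admissible g₀ h₀)
include h2 hadm

theorem mat_one : ps.mat g₀ h₀ 1 = 1 := by
  have _ := hadm
  rw [mat, ps.A_one h2, ps.D_one h2, ps.X_one_left h2, ps.X_one_right h2, zero_div]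
  exact Matrix.one_fin_two.symm

theorem mat_mul (g h : G) : ps.mat g₀ h₀ (g * h) = ps.mat g₀ h₀ g * ps.mat g₀ h₀ h := by
  have hA : ps.A (g * h) = ps.A g * ps.A h + ps.X g h := by
    rw [X]; ring
  have hD := ps.D_mul h2 g h
  have hL := ps.X_mul_left h2 g h h₀
  have hR := ps.X_mul_right h2 g h g₀
  rw [mat, mat, mat, Matrix.mul_fin_two, hA, hD, hL, hR]
  rcases hadm with hx | hx
  · have h1 := ps.X_swap h2 g h g₀ h₀
    have h3 := ps.X_swap h2 h g g₀ h₀
    have e00 : ps.X g h = ps.X g h₀ / ps.X g₀ h₀ * ps.X g₀ h := by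
      field_simp
      exact h1
    have e11 : ps.X h g = ps.X g₀ g * (ps.X h h₀ / ps.X g₀ h₀) := by
      field_simp
      rw [h3]; ring
    have e01 : (ps.A g * ps.X h h₀ + ps.D h * ps.X g h₀) / ps.X g₀ h₀ =
        ps.A g * (ps.X h h₀ / ps.X g₀ h₀) + ps.X g h₀ / ps.X g₀ h₀ * ps.D h := by
      field_simp
    have e10 : ps.A h * ps.X g₀ g + ps.D g * ps.X g₀ h =
        ps.X g₀ g * ps.A h + ps.D g * ps.X g₀ h := by ring
    rw [e01, e10, ← e00, add_comm (ps.D g * ps.D h), ← e11]
  · simp [hx]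

theorem trace_mat (g : G) : (ps.mat g₀ h₀ g).trace = ps.t g := by
  have _ := hadm
  rw [mat, Matrix.trace_fin_two_of]
  exact ps.A_add_D h2 g

theorem det_mat (g : G) : (ps.mat g₀ h₀ g).det = (ps.ε g : K) := by
  rw [mat, Matrix.det_fin_two_of, ← ps.A_mul_D_sub_X h2 g]
  rcases hadm with hx | hx
  · have h1 := ps.X_swap h2 g g g₀ h₀
    have e : ps.X g g = ps.X g h₀ / ps.X g₀ h₀ * ps.X g₀ g := by
      field_simp
      exact h1
    rw [← e]
  · simp [hx]

/-- Wiles' representation. -/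
noncomputable def rep : G →* Matrix (Fin 2) (Fin 2) K where
  toFun := ps.mat g₀ h₀
  map_one' := ps.mat_one h2 hadm
  map_mul' := ps.mat_mul h2 hadm

end OddPseudo

end Fermat.Agent.S30
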