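/-
S30 top (skeleton by helper216).  TASK S30-P10 (proved by helper187).
Wiles' representation attached to a `Pseudo` is bounded and continuous.
-/
import Fermat.Agent.S30.Defs
import Fermat.Agent.S30.WilesRep

set_option autoImplicit false
set_option linter.unusedSectionVars false

namespace Fermat.Agent.S30

open IsLocalRing

variable {N p : ℕ} {S : Finset ℕ} {𝒪 : Type} [CommRing 𝒪] [IsDomain 𝒪] [IsLocalRing 𝒪]
  [CharZero 𝒪] {a : ℕ → 𝒪}

local notation "K" => FractionRing 𝒪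

/-- the pseudo-character over the fraction field. -/
noncomputable def Pseudo.toOdd (Ps : Pseudo N p S a) : OddPseudo GQ K where
  t g := algebraMap 𝒪 K (Ps.t g)
  ε := (Units.map (algebraMap 𝒪 K : 𝒪 →* K)).comp Ps.ε
  c := complexConjugation
  c_mul_c := complexConjugation_mul_self
  t_one := by rw [Ps.t_one, map_ofNat]
  t_comm g h := by rw [Ps.t_comm]
  t_mul g h := by
    rw [← map_mul, Ps.t_mul, map_add, map_mul]
    rfl
  t_c := by rw [Ps.t_conj, map_zero]
  ε_c := by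
    rw [MonoidHom.comp_apply, Ps.ε_conj]
    ext
    simp

namespace Pseudo

variable (Ps : Pseudo N p S a)

/-- `2 A g` as an element of `𝒪`. -/
noncomputable def a2 (g : GQ) : 𝒪 := Ps.t g + Ps.t (complexConjugation * g)

/-- `2 D g` as an element of `𝒪`. -/
noncomputable def d2 (g : GQ) : 𝒪 := Ps.t g - Ps.t (complexConjugation * g)

/-- `4 X g h` as an element of `𝒪`. -/
noncomputable def x4 (g h : GQ) : 𝒪 := 2 * Ps.a2 (g * h) - Ps.a2 g * Ps.a2 h

omit [IsLocalRing 𝒪] in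
theorem two_ne_zero_K : (2 : K) ≠ 0 := by
  have h : (2 : K) = algebraMap 𝒪 K 2 := by rw [map_ofNat]
  rw [h]
  intro h0
  have := (IsFractionRing.injective 𝒪 K) (h0.trans (map_zero _).symm)
  exact two_ne_zero this

theorem map_a2 (g : GQ) : algebraMap 𝒪 K (Ps.a2 g) = 2 * Ps.toOdd.A g := by
  have h2 := two_ne_zero_K (𝒪 := 𝒪)
  unfold a2 OddPseudo.A
  rw [map_add]
  change _ = 2 * ((algebraMap 𝒪 K (Ps.t g) + algebraMap 𝒪 K (Ps.t (complexConjugation * g))) / 2)
  field_simp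

theorem map_d2 (g : GQ) : algebraMap 𝒪 K (Ps.d2 g) = 2 * Ps.toOdd.D g := by
  have h2 := two_ne_zero_K (𝒪 := 𝒪)
  unfold d2 OddPseudo.D
  rw [map_sub]
  change _ = 2 * ((algebraMap 𝒪 K (Ps.t g) - algebraMap 𝒪 K (Ps.t (complexConjugation * g))) / 2)
  field_simp

theorem map_x4 (g h : GQ) : algebraMap 𝒪 K (Ps.x4 g h) = 4 * Ps.toOdd.X g h := by
  unfold x4 OddPseudo.X
  rw [map_sub, map_mul, map_mul, map_a2, map_a2, map_a2, map_ofNat]
  ring

/-- `2 (A σ - 1)`. -/
noncomputable def al (σ : GQ) : 𝒪 :=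
  (Ps.t (1 * σ) - Ps.t 1) + (Ps.t (complexConjugation * σ) - Ps.t complexConjugation)

/-- `2 (D σ - 1)`. -/
noncomputable def de (σ : GQ) : 𝒪 :=
  (Ps.t (1 * σ) - Ps.t 1) - (Ps.t (complexConjugation * σ) - Ps.t complexConjugation)

/-- `2 (A (σ h) - A h)`. -/
noncomputable def be (h σ : GQ) : 𝒪 :=
  (Ps.t (h * σ) - Ps.t h) +
    (Ps.t (h * complexConjugation * σ) - Ps.t (h * complexConjugation))

/-- `2 (A (g σ) - A g)`. -/
noncomputable def ga (g σ : GQ) : 𝒪 :=
  (Ps.t (g * σ) - Ps.t g) +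
    (Ps.t (complexConjugation * g * σ) - Ps.t (complexConjugation * g))

variable {Ps} in
theorem al_mem {I : Ideal 𝒪} {σ : GQ} (h : ∀ g, Ps.t (g * σ) - Ps.t g ∈ I) : Ps.al σ ∈ I :=
  I.add_mem (h 1) (h _)

variable {Ps} in
theorem de_mem {I : Ideal 𝒪} {σ : GQ} (h : ∀ g, Ps.t (g * σ) - Ps.t g ∈ I) : Ps.de σ ∈ I :=
  I.sub_mem (h 1) (h _)

variable {Ps} in
theorem be_mem {I : Ideal 𝒪} {σ : GQ} (h : ∀ g, Ps.t (g * σ) - Ps.t g ∈ I) (h₀ : GQ) :
    Ps.be h₀ σ ∈ I :=
  I.add_mem (h _) (h _)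

variable {Ps} in
theorem ga_mem {I : Ideal 𝒪} {σ : GQ} (h : ∀ g, Ps.t (g * σ) - Ps.t g ∈ I) (g₀ : GQ) :
    Ps.ga g₀ σ ∈ I :=
  I.add_mem (h _) (h _)

theorem al_eq (σ : GQ) : Ps.al σ = Ps.a2 σ - 2 := by
  unfold al a2
  rw [one_mul, Ps.t_one, Ps.t_conj]
  ring

theorem de_eq (σ : GQ) : Ps.de σ = Ps.d2 σ - 2 := by
  unfold de d2
  rw [one_mul, Ps.t_one, Ps.t_conj]
  ring

theorem be_eq (h σ : GQ) : Ps.be h σ = Ps.a2 (σ * h) - Ps.a2 h := by
  unfold be a2
  rw [Ps.t_comm h σ, Ps.t_comm h complexConjugation,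
    show h * complexConjugation * σ = h * (complexConjugation * σ) from mul_assoc _ _ _,
    Ps.t_comm h (complexConjugation * σ),
    show complexConjugation * σ * h = complexConjugation * (σ * h) from mul_assoc _ _ _]
  ring

theorem ga_eq (g σ : GQ) : Ps.ga g σ = Ps.a2 (g * σ) - Ps.a2 g := by
  unfold ga a2
  rw [show complexConjugation * g * σ = complexConjugation * (g * σ) from mul_assoc _ _ _]
  ring

theorem map_al (σ : GQ) : algebraMap 𝒪 K (Ps.al σ) = 2 * (Ps.toOdd.A σ - 1) := by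
  rw [al_eq, map_sub, map_a2, map_ofNat]; ring

theorem map_de (σ : GQ) : algebraMap 𝒪 K (Ps.de σ) = 2 * (Ps.toOdd.D σ - 1) := by
  rw [de_eq, map_sub, map_d2, map_ofNat]; ring

theorem map_be (h σ : GQ) :
    algebraMap 𝒪 K (Ps.be h σ) = 2 * (Ps.toOdd.A (σ * h) - Ps.toOdd.A h) := by
  rw [be_eq, map_sub, map_a2, map_a2]; ring

theorem map_ga (g σ : GQ) :
    algebraMap 𝒪 K (Ps.ga g σ) = 2 * (Ps.toOdd.A (g * σ) - Ps.toOdd.A g) := by
  rw [ga_eq, map_sub, map_a2, map_a2]; ring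

end Pseudo

open Pseudo in
theorem exists_bounded_rep (Ps : Pseudo N p S a) :
    ∃ (r : GQ →* Matrix (Fin 2) (Fin 2) K) (d : 𝒪), d ≠ 0 ∧
      (∀ g, (r g).trace = algebraMap 𝒪 K (Ps.t g)) ∧
      (∀ g, (r g).det = algebraMap 𝒪 K (Ps.ε g : 𝒪)) ∧
      (∀ g i j, ∃ y : 𝒪, algebraMap 𝒪 K y = algebraMap 𝒪 K d * r g i j) ∧
      (∀ (I : Ideal 𝒪) (σ : GQ), (∀ g, Ps.t (g * σ) - Ps.t g ∈ I) →
        ∀ i j, ∃ y ∈ I, algebraMap 𝒪 K y = algebraMap 𝒪 K d * (r σ - 1) i j) := by
  classical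
  have h2 : (2 : K) ≠ 0 := two_ne_zero_K (𝒪 := 𝒪)
  have h4 : (4 : 𝒪) ≠ 0 := by norm_num
  set ps := Ps.toOdd with hps
  by_cases hX : ∃ g₀ h₀ : GQ, ps.X g₀ h₀ ≠ 0
  · obtain ⟨g₀, h₀, h0⟩ := hX
    have hadm : ps.Admissible g₀ h₀ := Or.inl h0
    have hy0 : algebraMap 𝒪 K (Ps.x4 g₀ h₀) = 4 * ps.X g₀ h₀ := Ps.map_x4 g₀ h₀
    have hy0ne : Ps.x4 g₀ h₀ ≠ 0 := by
      intro h
      rw [h, map_zero] at hy0
      have h4K : (4 : K) ≠ 0 := by
        have : (4 : K) = 2 * 2 := by norm_num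
        rw [this]; exact mul_ne_zero h2 h2
      exact (mul_ne_zero h4K h0) hy0.symm
    refine ⟨ps.rep h2 hadm, 4 * Ps.x4 g₀ h₀, mul_ne_zero h4 hy0ne, ?_, ?_, ?_, ?_⟩
    · intro g
      exact ps.trace_mat h2 hadm g
    · intro g
      exact ps.det_mat h2 hadm g
    · intro g i j
      change ∃ y : 𝒪, algebraMap 𝒪 K y = algebraMap 𝒪 K (4 * Ps.x4 g₀ h₀) * ps.mat g₀ h₀ g i j
      rw [map_mul, hy0, map_ofNat]
      fin_cases i <;> fin_cases j
      · refine ⟨2 * Ps.x4 g₀ h₀ * Ps.a2 g, ?_⟩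
        rw [map_mul, map_mul, hy0, Ps.map_a2, map_ofNat]
        simp only [OddPseudo.mat, Fin.zero_eta, Fin.isValue, Matrix.of_apply, Matrix.cons_val',
          Matrix.cons_val_zero, Matrix.cons_val_fin_one]
        ring
      · refine ⟨4 * Ps.x4 g h₀, ?_⟩
        rw [map_mul, Ps.map_x4, map_ofNat]
        simp only [OddPseudo.mat, Fin.zero_eta, Fin.mk_one, Fin.isValue, Matrix.of_apply,
          Matrix.cons_val', Matrix.cons_val_zero, Matrix.cons_val_one, Matrix.cons_val_fin_one]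
        field_simp
        ring
      · refine ⟨Ps.x4 g₀ h₀ * Ps.x4 g₀ g, ?_⟩
        rw [map_mul, hy0, Ps.map_x4]
        simp only [OddPseudo.mat, Fin.zero_eta, Fin.mk_one, Fin.isValue, Matrix.of_apply,
          Matrix.cons_val', Matrix.cons_val_zero, Matrix.cons_val_one, Matrix.cons_val_fin_one]
        ring
      · refine ⟨2 * Ps.x4 g₀ h₀ * Ps.d2 g, ?_⟩
        rw [map_mul, map_mul, hy0, Ps.map_d2, map_ofNat]
        simp only [OddPseudo.mat, Fin.mk_one, Fin.isValue, Matrix.of_apply, Matrix.cons_val',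
          Matrix.cons_val_one, Matrix.cons_val_fin_one]
        ring
    · intro I σ hσ i j
      change ∃ y ∈ I, algebraMap 𝒪 K y
        = algebraMap 𝒪 K (4 * Ps.x4 g₀ h₀) * (ps.mat g₀ h₀ σ - 1) i j
      rw [map_mul, hy0, map_ofNat]
      fin_cases i <;> fin_cases j
      · refine ⟨2 * Ps.x4 g₀ h₀ * Ps.al σ, I.mul_mem_left _ (al_mem hσ), ?_⟩
        rw [map_mul, map_mul, hy0, Ps.map_al, map_ofNat]
        simp only [OddPseudo.mat, Fin.zero_eta, Fin.isValue, Matrix.sub_apply, Matrix.of_apply,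
          Matrix.cons_val', Matrix.cons_val_zero, Matrix.cons_val_fin_one, Matrix.one_apply_eq]
        ring
      · refine ⟨8 * Ps.be h₀ σ - 4 * Ps.a2 h₀ * Ps.al σ,
          I.sub_mem (I.mul_mem_left _ (be_mem hσ h₀)) (I.mul_mem_left _ (al_mem hσ)), ?_⟩
        rw [map_sub, map_mul, map_mul, map_mul, Ps.map_be, Ps.map_al, Ps.map_a2, map_ofNat,
          map_ofNat]
        simp only [OddPseudo.mat, Fin.zero_eta, Fin.mk_one, Fin.isValue, Matrix.sub_apply,
          Matrix.of_apply, Matrix.cons_val', Matrix.cons_val_zero, Matrix.cons_val_one,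
          Matrix.cons_val_fin_one, ne_eq, zero_ne_one, not_false_eq_true, Matrix.one_apply_ne,
          sub_zero]
        have hXd : ps.X σ h₀ = ps.A (σ * h₀) - ps.A σ * ps.A h₀ := rfl
        rw [hXd]
        field_simp
        ring
      · refine ⟨Ps.x4 g₀ h₀ * (2 * Ps.ga g₀ σ - Ps.a2 g₀ * Ps.al σ),
          I.mul_mem_left _ (I.sub_mem (I.mul_mem_left _ (ga_mem hσ g₀))
            (I.mul_mem_left _ (al_mem hσ))), ?_⟩
        rw [map_mul, map_sub, map_mul, map_mul, hy0, Ps.map_ga, Ps.map_al, Ps.map_a2, map_ofNat]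
        simp only [OddPseudo.mat, Fin.zero_eta, Fin.mk_one, Fin.isValue, Matrix.sub_apply,
          Matrix.of_apply, Matrix.cons_val', Matrix.cons_val_zero, Matrix.cons_val_one,
          Matrix.cons_val_fin_one, ne_eq, one_ne_zero, not_false_eq_true, Matrix.one_apply_ne,
          sub_zero]
        have hXd : ps.X g₀ σ = ps.A (g₀ * σ) - ps.A g₀ * ps.A σ := rfl
        rw [hXd]
        ring
      · refine ⟨2 * Ps.x4 g₀ h₀ * Ps.de σ, I.mul_mem_left _ (de_mem hσ), ?_⟩
        rw [map_mul, map_mul, hy0, Ps.map_de, map_ofNat]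
        simp only [OddPseudo.mat, Fin.mk_one, Fin.isValue, Matrix.sub_apply, Matrix.of_apply,
          Matrix.cons_val', Matrix.cons_val_one, Matrix.cons_val_fin_one, Matrix.one_apply_eq]
        ring
  · have hX0 : ∀ g h : GQ, ps.X g h = 0 := by
      intro g h
      by_contra hne
      exact hX ⟨g, h, hne⟩
    have hadm : ps.Admissible 1 1 := Or.inr hX0
    refine ⟨ps.rep h2 hadm, 4, h4, ?_, ?_, ?_, ?_⟩
    · intro g
      exact ps.trace_mat h2 hadm g
    · intro g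
      exact ps.det_mat h2 hadm g
    · intro g i j
      change ∃ y : 𝒪, algebraMap 𝒪 K y = algebraMap 𝒪 K 4 * ps.mat 1 1 g i j
      rw [map_ofNat]
      fin_cases i <;> fin_cases j
      · refine ⟨2 * Ps.a2 g, ?_⟩
        rw [map_mul, Ps.map_a2, map_ofNat]
        simp only [OddPseudo.mat, Fin.zero_eta, Fin.isValue, Matrix.of_apply, Matrix.cons_val',
          Matrix.cons_val_zero, Matrix.cons_val_fin_one]
        ring
      · refine ⟨0, ?_⟩
        simp only [OddPseudo.mat, Fin.zero_eta, Fin.mk_one, Fin.isValue, Matrix.of_apply,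
          Matrix.cons_val', Matrix.cons_val_zero, Matrix.cons_val_one, Matrix.cons_val_fin_one]
        rw [hX0, zero_div, mul_zero, map_zero]
      · refine ⟨0, ?_⟩
        simp only [OddPseudo.mat, Fin.zero_eta, Fin.mk_one, Fin.isValue, Matrix.of_apply,
          Matrix.cons_val', Matrix.cons_val_zero, Matrix.cons_val_one, Matrix.cons_val_fin_one]
        rw [hX0, mul_zero, map_zero]
      · refine ⟨2 * Ps.d2 g, ?_⟩
        rw [map_mul, Ps.map_d2, map_ofNat]
        simp only [OddPseudo.mat, Fin.mk_one, Fin.isValue, Matrix.of_apply, Matrix.cons_val',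
          Matrix.cons_val_one, Matrix.cons_val_fin_one]
        ring
    · intro I σ hσ i j
      change ∃ y ∈ I, algebraMap 𝒪 K y = algebraMap 𝒪 K 4 * (ps.mat 1 1 σ - 1) i j
      rw [map_ofNat]
      fin_cases i <;> fin_cases j
      · refine ⟨2 * Ps.al σ, I.mul_mem_left _ (al_mem hσ), ?_⟩
        rw [map_mul, Ps.map_al, map_ofNat]
        simp only [OddPseudo.mat, Fin.zero_eta, Fin.isValue, Matrix.sub_apply, Matrix.of_apply,
          Matrix.cons_val', Matrix.cons_val_zero, Matrix.cons_val_fin_one, Matrix.one_apply_eq]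
        ring
      · refine ⟨0, I.zero_mem, ?_⟩
        simp only [OddPseudo.mat, Fin.zero_eta, Fin.mk_one, Fin.isValue, Matrix.sub_apply,
          Matrix.of_apply, Matrix.cons_val', Matrix.cons_val_zero, Matrix.cons_val_one,
          Matrix.cons_val_fin_one, ne_eq, zero_ne_one, not_false_eq_true, Matrix.one_apply_ne,
          sub_zero]
        rw [hX0, zero_div, mul_zero, map_zero]
      · refine ⟨0, I.zero_mem, ?_⟩
        simp only [OddPseudo.mat, Fin.zero_eta, Fin.mk_one, Fin.isValue, Matrix.sub_apply,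
          Matrix.of_apply, Matrix.cons_val', Matrix.cons_val_zero, Matrix.cons_val_one,
          Matrix.cons_val_fin_one, ne_eq, one_ne_zero, not_false_eq_true, Matrix.one_apply_ne,
          sub_zero]
        rw [hX0, mul_zero, map_zero]
      · refine ⟨2 * Ps.de σ, I.mul_mem_left _ (de_mem hσ), ?_⟩
        rw [map_mul, Ps.map_de, map_ofNat]
        simp only [OddPseudo.mat, Fin.mk_one, Fin.isValue, Matrix.sub_apply, Matrix.of_apply,
          Matrix.cons_val', Matrix.cons_val_one, Matrix.cons_val_fin_one, Matrix.one_apply_eq]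
        ring

end Fermat.Agent.S30
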