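/-
S30 top (skeleton by helper216).  TASK S30-P09 (proved by helper196).
A bounded two-dimensional representation over the fraction field of a PID is conjugate to an
integral one.
-/
import Mathlib

set_option autoImplicit false

namespace Fermat.Agent.S30

variable {𝒪 K G : Type*} [CommRing 𝒪] [IsDomain 𝒪] [IsPrincipalIdealRing 𝒪] [Field K]
  [Algebra 𝒪 K] [IsFractionRing 𝒪 K] [Group G]

omit [IsPrincipalIdealRing 𝒪] in
/-- Matrix form: if `B0 * C0 = d` and `r g * B = B * (integral)`, the conjugate is integral. -/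
private theorem integral_rep_of_conj (r : G →* Matrix (Fin 2) (Fin 2) K) (d : 𝒪) (hd : d ≠ 0)
    (B0 C0 : Matrix (Fin 2) (Fin 2) 𝒪) (hBC : B0 * C0 = d • (1 : Matrix (Fin 2) (Fin 2) 𝒪))
    (hR : ∀ g, ∃ R0 : Matrix (Fin 2) (Fin 2) 𝒪,
      r g * (algebraMap 𝒪 K).mapMatrix B0
        = (algebraMap 𝒪 K).mapMatrix B0 * (algebraMap 𝒪 K).mapMatrix R0) :
    ∃ (r' : G →* Matrix (Fin 2) (Fin 2) 𝒪) (d' : 𝒪), d' ≠ 0 ∧
      (∀ g, algebraMap 𝒪 K (r' g).trace = (r g).trace) ∧
      (∀ g, algebraMap 𝒪 K (r' g).det = (r g).det) ∧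
      (∀ (I : Ideal 𝒪) (σ : G),
        (∀ i j, ∃ y ∈ I, algebraMap 𝒪 K y = algebraMap 𝒪 K d * (r σ - 1) i j) →
          ∀ i j, d' * (r' σ - 1) i j ∈ I) := by
  classical
  set φ : 𝒪 →+* K := algebraMap 𝒪 K with hφ
  have hφinj : Function.Injective φ := IsFractionRing.injective 𝒪 K
  set Φ : Matrix (Fin 2) (Fin 2) 𝒪 →+* Matrix (Fin 2) (Fin 2) K := φ.mapMatrix with hΦ
  have hΦinj : Function.Injective Φ := by
    intro M M' h
    exact Matrix.map_injective hφinj h
  have hΦsmul : ∀ (a : 𝒪) (M : Matrix (Fin 2) (Fin 2) 𝒪), Φ (a • M) = φ a • Φ M := by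
    intro a M
    ext i j
    simp [hΦ, RingHom.mapMatrix_apply]
  have hd' : φ d ≠ 0 := by
    intro h
    exact hd (hφinj (by rw [h, map_zero]))
  set B := Φ B0 with hB
  set C := Φ C0 with hC
  set Binv : Matrix (Fin 2) (Fin 2) K := (φ d)⁻¹ • C with hBinv
  have hBC' : B * C = φ d • (1 : Matrix (Fin 2) (Fin 2) K) := by
    rw [hB, hC, ← map_mul, hBC, hΦsmul, map_one]
  have h1 : B * Binv = 1 := by
    rw [hBinv, Matrix.mul_smul, hBC', smul_smul, inv_mul_cancel₀ hd', one_smul]
  have h2 : Binv * B = 1 := mul_eq_one_comm.mp h1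
  choose R hRR using hR
  have hRφ : ∀ g, Φ (R g) = Binv * r g * B := by
    intro g
    rw [mul_assoc, hRR g, ← mul_assoc, h2, one_mul]
  refine ⟨{ toFun := R, map_one' := ?_, map_mul' := ?_ }, d * d, mul_ne_zero hd hd, ?_, ?_, ?_⟩
  · apply hΦinj
    rw [hRφ, map_one, map_one, mul_one, h2]
  · intro g h
    apply hΦinj
    rw [map_mul, hRφ, hRφ, hRφ, map_mul]
    calc Binv * (r g * r h) * B = Binv * r g * 1 * r h * B := by
          simp only [mul_one, mul_assoc]
      _ = Binv * r g * B * (Binv * r h * B) := by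
          rw [← h1]; simp only [mul_assoc]
  · intro g
    show φ (R g).trace = (r g).trace
    have : φ (R g).trace = (Φ (R g)).trace := by
      simp [hΦ, Matrix.trace, RingHom.mapMatrix_apply]
    rw [this, hRφ, mul_assoc, Matrix.trace_mul_comm, mul_assoc, h1, mul_one]
  · intro g
    show φ (R g).det = (r g).det
    rw [RingHom.map_det, ← hΦ, hRφ, Matrix.det_mul, Matrix.det_mul, mul_right_comm,
      ← Matrix.det_mul, h2, Matrix.det_one, one_mul]
  · intro I σ hI i j
    show d * d * (R σ - 1) i j ∈ I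
    choose Y hYI hY using hI
    have key : (d * d) • (R σ - 1) = C0 * Matrix.of Y * B0 := by
      apply hΦinj
      have hYφ : Φ (Matrix.of Y) = φ d • (r σ - 1) := by
        ext a b
        simp only [hΦ, RingHom.mapMatrix_apply, Matrix.map_apply, Matrix.of_apply, hY,
          Matrix.smul_apply, smul_eq_mul]
      have hCB : C = φ d • Binv := by
        rw [hBinv, smul_smul, mul_inv_cancel₀ hd', one_smul]
      have this : Binv * r σ * B - 1 = Binv * (r σ - 1) * B := by
        rw [mul_sub, sub_mul, mul_one, h2]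
      rw [hΦsmul, map_sub, map_one, hRφ, map_mul φ, map_mul Φ, map_mul Φ, hYφ, ← hC, ← hB, this]
      calc (φ d * φ d) • (Binv * (r σ - 1) * B)
          = (φ d • Binv) * (φ d • (r σ - 1)) * B := by
            simp only [Matrix.smul_mul, Matrix.mul_smul, smul_smul]
        _ = C * (φ d • (r σ - 1)) * B := by rw [← hCB]
    have h3 : d * d * (R σ - 1) i j = (C0 * Matrix.of Y * B0) i j := by
      rw [← key, Matrix.smul_apply, smul_eq_mul]
    rw [h3, Matrix.mul_apply]
    refine Ideal.sum_mem _ fun a _ => Ideal.mul_mem_right _ _ ?_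
    rw [Matrix.mul_apply]
    exact Ideal.sum_mem _ fun b _ => Ideal.mul_mem_left _ _ (hYI b a)

theorem exists_integral_rep (r : G →* Matrix (Fin 2) (Fin 2) K) (d : 𝒪) (hd : d ≠ 0)
    (hr : ∀ g i j, ∃ y : 𝒪, algebraMap 𝒪 K y = algebraMap 𝒪 K d * r g i j) :
    ∃ (r' : G →* Matrix (Fin 2) (Fin 2) 𝒪) (d' : 𝒪), d' ≠ 0 ∧
      (∀ g, algebraMap 𝒪 K (r' g).trace = (r g).trace) ∧
      (∀ g, algebraMap 𝒪 K (r' g).det = (r g).det) ∧
      (∀ (I : Ideal 𝒪) (σ : G),
        (∀ i j, ∃ y ∈ I, algebraMap 𝒪 K y = algebraMap 𝒪 K d * (r σ - 1) i j) →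
          ∀ i j, d' * (r' σ - 1) i j ∈ I) := by
  classical
  have hφinj : Function.Injective (algebraMap 𝒪 K) := IsFractionRing.injective 𝒪 K
  -- the lattice `d • L` inside `𝒪 ^ 2`
  let gens : Set (Fin 2 → 𝒪) :=
    {w | ∃ (g : G) (i : Fin 2), ∀ k, algebraMap 𝒪 K (w k) = algebraMap 𝒪 K d * r g k i}
  let L : Submodule 𝒪 (Fin 2 → 𝒪) := Submodule.span 𝒪 gens
  -- stability
  have hstab : ∀ (h : G) (w : Fin 2 → 𝒪), w ∈ L → ∃ w' ∈ L, ∀ k,
      algebraMap 𝒪 K (w' k) = ∑ m, r h k m * algebraMap 𝒪 K (w m) := by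
    intro h w hw
    induction hw using Submodule.span_induction with
    | mem w hw =>
      obtain ⟨g, i, hgi⟩ := hw
      choose y hy using hr (h * g)
      refine ⟨fun k => y k i, Submodule.subset_span ⟨h * g, i, fun k => hy k i⟩, fun k => ?_⟩
      rw [hy, map_mul, Matrix.mul_apply, Finset.mul_sum]
      refine Finset.sum_congr rfl fun m _ => ?_
      rw [hgi m]; ring
    | zero => exact ⟨0, L.zero_mem, fun k => by simp⟩
    | add x y _ _ hx hy =>
      obtain ⟨x', hx'L, hx'⟩ := hx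
      obtain ⟨y', hy'L, hy'⟩ := hy
      refine ⟨x' + y', L.add_mem hx'L hy'L, fun k => ?_⟩
      simp only [Pi.add_apply, map_add, hx', hy', mul_add, Finset.sum_add_distrib]
    | smul a x _ hx =>
      obtain ⟨x', hx'L, hx'⟩ := hx
      refine ⟨a • x', L.smul_mem a hx'L, fun k => ?_⟩
      simp only [Pi.smul_apply, smul_eq_mul, map_mul, hx', Finset.mul_sum]
      refine Finset.sum_congr rfl fun m _ => by ring
  -- `d e_i ∈ L`
  have hde : ∀ i : Fin 2, (d • Pi.single i (1 : 𝒪) : Fin 2 → 𝒪) ∈ L := by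
    intro i
    refine Submodule.subset_span ⟨1, i, fun k => ?_⟩
    rw [map_one, Matrix.one_apply, Pi.smul_apply, smul_eq_mul, map_mul, Pi.single_apply]
    by_cases hki : k = i
    · simp [hki]
    · simp [hki]
  -- rank
  have hrank : Module.finrank 𝒪 L = 2 := by
    apply le_antisymm
    · have := Submodule.finrank_le L
      simpa using this
    · have hli : LinearIndependent 𝒪 (fun i : Fin 2 => (⟨_, hde i⟩ : L)) := by
        apply LinearIndependent.of_comp L.subtype
        have h0 := (Pi.basisFun 𝒪 (Fin 2)).linearIndependent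
        have h1 := h0.map' (LinearMap.lsmul 𝒪 (Fin 2 → 𝒪) d) (by
          rw [LinearMap.ker_eq_bot]
          intro x y hxy
          exact smul_right_injective _ hd hxy)
        have heq : (L.subtype ∘ fun i : Fin 2 => (⟨_, hde i⟩ : L))
            = (LinearMap.lsmul 𝒪 (Fin 2 → 𝒪) d) ∘ (Pi.basisFun 𝒪 (Fin 2)) := by
          ext i k
          simp
        rw [heq]
        exact h1
      simpa using hli.fintype_card_le_finrank
  let b : Module.Basis (Fin 2) 𝒪 L := Module.finBasisOfFinrankEq 𝒪 L hrank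
  let B0 : Matrix (Fin 2) (Fin 2) 𝒪 := Matrix.of fun k j => (b j : Fin 2 → 𝒪) k
  let C0 : Matrix (Fin 2) (Fin 2) 𝒪 := Matrix.of fun j i => b.repr ⟨_, hde i⟩ j
  have hexp : ∀ (w : L) (k : Fin 2), (w : Fin 2 → 𝒪) k = ∑ j, B0 k j * b.repr w j := by
    intro w k
    have h := b.sum_repr w
    have h' := congrArg (fun v : L => (v : Fin 2 → 𝒪) k) h
    simp only [Submodule.coe_sum, Submodule.coe_smul, Finset.sum_apply, Pi.smul_apply,
      smul_eq_mul] at h'
    rw [← h']
    refine Finset.sum_congr rfl fun j _ => ?_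
    simp only [B0, Matrix.of_apply]
    ring
  refine integral_rep_of_conj r d hd B0 C0 ?_ ?_
  · ext k i
    rw [Matrix.mul_apply]
    have := hexp ⟨_, hde i⟩ k
    simp only [Pi.smul_apply, smul_eq_mul] at this
    simp only [C0, Matrix.of_apply, Matrix.smul_apply, smul_eq_mul, Matrix.one_apply]
    rw [← this, Pi.single_apply]
  · intro g
    choose w' hw'L hw' using fun j => hstab g (b j) (b j).2
    refine ⟨Matrix.of fun i j => b.repr ⟨w' j, hw'L j⟩ i, ?_⟩
    ext k j
    simp only [Matrix.mul_apply, RingHom.mapMatrix_apply, Matrix.map_apply, Matrix.of_apply]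
    have h1 := hw' j k
    have h2 := hexp ⟨w' j, hw'L j⟩ k
    simp only at h2
    rw [h2, map_sum] at h1
    simp only [map_mul] at h1
    rw [h1]
    rfl

end Fermat.Agent.S30
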