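/-
S30 top (skeleton by helper216).  TASK S30-P11.
From a pseudo-representation to a `GaloisRepAdic`.
-/
import Fermat.Agent.S30.Bounded
import Fermat.Agent.S30.Lattice

set_option autoImplicit false

namespace Fermat.Agent.S30

open IsLocalRing Polynomial

variable {N p : ℕ} {S : Finset ℕ} {𝒪 : Type} [CommRing 𝒪] [IsDomain 𝒪]
  [IsDiscreteValuationRing 𝒪] [CharZero 𝒪] {a : ℕ → 𝒪}

/-- integral matrices. -/
theorem exists_matrix_rep (Ps : Pseudo N p S a) :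
    ∃ (r : GQ →* Matrix (Fin 2) (Fin 2) 𝒪) (d : 𝒪), d ≠ 0 ∧
      (∀ g, (r g).trace = Ps.t g) ∧ (∀ g, (r g).det = (Ps.ε g : 𝒪)) ∧
      (∀ (I : Ideal 𝒪) (σ : GQ), (∀ g, Ps.t (g * σ) - Ps.t g ∈ I) →
        ∀ i j, d * (r σ - 1) i j ∈ I) := by
  obtain ⟨r, d, hd, htr, hdet, hbd, hI⟩ := exists_bounded_rep Ps
  obtain ⟨r', d', hd', htr', hdet', hI'⟩ := exists_integral_rep r d hd hbd
  have hinj : Function.Injective (algebraMap 𝒪 (FractionRing 𝒪)) :=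
    IsFractionRing.injective 𝒪 (FractionRing 𝒪)
  refine ⟨r', d', hd', fun g => hinj ?_, fun g => hinj ?_, fun I σ h => hI' I σ (hI I σ h)⟩
  · rw [htr', htr]
  · rw [hdet', hdet]

/-- the linear representation attached to a matrix representation. -/
noncomputable def RepOfPseudo.linOfMatrix (r : GQ →* Matrix (Fin 2) (Fin 2) 𝒪) :
    GQ →* Module.End 𝒪 (Fin 2 → 𝒪) :=
  ((Matrix.toLinAlgEquiv' : Matrix (Fin 2) (Fin 2) 𝒪 ≃ₐ[𝒪] _) :
    Matrix (Fin 2) (Fin 2) 𝒪 →* Module.End 𝒪 (Fin 2 → 𝒪)).comp r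

theorem RepOfPseudo.linOfMatrix_apply (r : GQ →* Matrix (Fin 2) (Fin 2) 𝒪) (g : GQ) :
    RepOfPseudo.linOfMatrix r g = Matrix.toLin' (r g) := rfl

/-- a vector with all coordinates in `I` lies in `I • ⊤`. -/
theorem RepOfPseudo.mem_smul_top_of_forall_mem (I : Ideal 𝒪) (v : Fin 2 → 𝒪) (hv : ∀ i, v i ∈ I) :
    v ∈ I • (⊤ : Submodule 𝒪 (Fin 2 → 𝒪)) := by
  have h : v = ∑ i, v i • (Pi.single i (1 : 𝒪) : Fin 2 → 𝒪) := by
    funext j
    simp [Finset.sum_apply, Pi.single_apply]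
  rw [h]
  exact Submodule.sum_mem _ fun i _ => Submodule.smul_mem_smul (hv i) Submodule.mem_top

/-- packaging of a continuous matrix representation. -/
theorem exists_galoisRepAdic (r : GQ →* Matrix (Fin 2) (Fin 2) 𝒪)
    (hcont : ∀ n : ℕ, ∃ L : IntermediateField ℚ (AlgebraicClosure ℚ), FiniteDimensional ℚ L ∧
      ∀ σ : GQ, (∀ x ∈ L, σ x = x) → ∀ i j, (r σ - 1) i j ∈ maximalIdeal 𝒪 ^ n) :
    ∃ ρ : GaloisRepAdic 𝒪,
      (∀ g, LinearMap.charpoly (ρ.ρ g) = X ^ 2 - C (r g).trace * X + C (r g).det) ∧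
      (∀ g, r g = 1 → ρ.ρ g = 1) := by
  refine ⟨{ V := Fin 2 → 𝒪
            finrank_eq := by simp
            ρ := RepOfPseudo.linOfMatrix r
            isAdicContinuous := ?_ }, ?_, ?_⟩
  · intro n
    obtain ⟨L, hL, h⟩ := hcont n
    refine ⟨L, hL, fun σ hσ v => ?_⟩
    apply RepOfPseudo.mem_smul_top_of_forall_mem
    intro i
    have h1 : (RepOfPseudo.linOfMatrix r σ v - v) i = ∑ j, (r σ - 1) i j * v j := by
      rw [RepOfPseudo.linOfMatrix_apply, Matrix.toLin'_apply, Pi.sub_apply, Matrix.mulVec, dotProduct]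
      have h2 : v i = ∑ j, (1 : Matrix (Fin 2) (Fin 2) 𝒪) i j * v j := by
        simp [Matrix.one_apply]
      conv_lhs => rw [h2]
      rw [← Finset.sum_sub_distrib]
      exact Finset.sum_congr rfl fun j _ => by rw [Matrix.sub_apply, sub_mul]
    rw [h1]
    exact Ideal.sum_mem _ fun j _ => Ideal.mul_mem_right _ _ (h σ hσ i j)
  · intro g
    show LinearMap.charpoly (RepOfPseudo.linOfMatrix r g) = _
    rw [RepOfPseudo.linOfMatrix_apply, Matrix.charpoly_toLin', Matrix.charpoly_fin_two]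
  · intro g hg
    show RepOfPseudo.linOfMatrix r g = 1
    rw [RepOfPseudo.linOfMatrix_apply, hg, Matrix.toLin'_one]
    rfl

/-- in a DVR, division by a nonzero element loses only a bounded power of the maximal ideal. -/
theorem RepOfPseudo.exists_shift (d : 𝒪) (hd : d ≠ 0) :
    ∃ v : ℕ, ∀ (n : ℕ) (x : 𝒪), d * x ∈ maximalIdeal 𝒪 ^ (n + v) → x ∈ maximalIdeal 𝒪 ^ n := by
  obtain ⟨ϖ, hϖ⟩ := IsDiscreteValuationRing.exists_irreducible 𝒪
  obtain ⟨v, u, rfl⟩ := IsDiscreteValuationRing.eq_unit_mul_pow_irreducible hd hϖ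
  refine ⟨v, fun n x hx => ?_⟩
  rw [hϖ.maximalIdeal_eq, Ideal.span_singleton_pow, Ideal.mem_span_singleton] at hx ⊢
  obtain ⟨y, hy⟩ := hx
  have hϖ0 : ϖ ^ v ≠ 0 := pow_ne_zero _ hϖ.ne_zero
  refine ⟨(↑u⁻¹ : 𝒪) * y, ?_⟩
  have h1 : ϖ ^ v * ((u : 𝒪) * x) = ϖ ^ v * (ϖ ^ n * y) := by
    rw [pow_add] at hy
    linear_combination hy
  have h2 := mul_left_cancel₀ hϖ0 h1
  calc x = (↑u⁻¹ : 𝒪) * ((u : 𝒪) * x) := by rw [← mul_assoc, Units.inv_mul, one_mul]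
    _ = ϖ ^ n * ((↑u⁻¹ : 𝒪) * y) := by rw [h2]; ring

theorem exists_rep_of_pseudo (Ps : Pseudo N p S a) :
    ∃ ρ : GaloisRepAdic 𝒪,
      (∀ g, LinearMap.charpoly (ρ.ρ g) = X ^ 2 - C (Ps.t g) * X + C (Ps.ε g : 𝒪)) ∧
      (∀ σ : GQ, (∀ g, Ps.t (g * σ) = Ps.t g) → ρ.ρ σ = 1) := by
  obtain ⟨r, d, hd, htr, hdet, hI⟩ := exists_matrix_rep Ps
  obtain ⟨v, hv⟩ := RepOfPseudo.exists_shift d hd
  obtain ⟨ρ, hρ1, hρ2⟩ := exists_galoisRepAdic r (fun n => by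
    obtain ⟨L, hL, h⟩ := Ps.continuous (n + v)
    exact ⟨L, hL, fun σ hσ i j => hv n _ (hI _ σ (h σ hσ).1 i j)⟩)
  refine ⟨ρ, fun g => by rw [hρ1, htr, hdet], fun σ hσ => hρ2 σ ?_⟩
  have h0 : ∀ i j, d * (r σ - 1) i j ∈ (⊥ : Ideal 𝒪) :=
    hI ⊥ σ fun g => by rw [hσ g, sub_self]; exact Ideal.zero_mem _
  have h1 : r σ - 1 = 0 := by
    ext i j
    have := h0 i j
    rw [Ideal.mem_bot, mul_eq_zero] at this
    exact this.resolve_left hd
  exact sub_eq_zero.1 h1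

end Fermat.Agent.S30
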