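/-
S30 top (helper216).  Assembly: weak Chebotarev + a Hecke-Galois tower for the eigensystem `χ`
give the conclusion of S30 (with `𝒪'' = 𝒪'`).
-/
import Fermat.Agent.S30.PseudoOfTower
import Fermat.Agent.S30.RepOfPseudo

set_option autoImplicit false

namespace Fermat.Agent.S30

open IsLocalRing Polynomial

theorem result_of_tower (wc : WeakCheb) (p : ℕ) [Fact p.Prime] (N : ℕ) [NeZero N] (S : Finset ℕ)
    (hpS : p ∈ S) (_hNS : ∀ q : ℕ, q.Prime → q ∣ N → q ∈ S)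
    (𝒪' : Type) [CommRing 𝒪'] [IsDomain 𝒪'] [IsDiscreteValuationRing 𝒪']
    [IsAdicComplete (IsLocalRing.maximalIdeal 𝒪') 𝒪'] [Finite (IsLocalRing.ResidueField 𝒪')]
    [CharZero 𝒪'] (hp𝒪' : (p : 𝒪') ∈ IsLocalRing.maximalIdeal 𝒪')
    (χ : CuspForm.heckeAlgebra N 2 (↑S : Set ℕ) →+* 𝒪')
    (tower : ∀ k, Level N p S (aOf χ) k) :
    ∃ (𝒪'' : Type) (_ : CommRing 𝒪'') (_ : IsDomain 𝒪'') (_ : IsDiscreteValuationRing 𝒪'')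
      (_ : IsAdicComplete (IsLocalRing.maximalIdeal 𝒪'') 𝒪'')
      (_ : Finite (IsLocalRing.ResidueField 𝒪'')) (_ : CharZero 𝒪'')
      (_ : Algebra 𝒪' 𝒪'') (_ : Module.Finite 𝒪' 𝒪'') (_ : IsLocalHom (algebraMap 𝒪' 𝒪'')),
    Function.Injective (algebraMap 𝒪' 𝒪'') ∧
    ∃ ρ : GaloisRepAdic 𝒪'',
      (∀ (ℓ : ℕ) (hℓ : ℓ.Prime) (hℓN : ¬ ℓ ∣ N) (hℓS : ℓ ∉ (↑S : Set ℕ)),
        ∀ A : ValuationSubring (AlgebraicClosure ℚ), A.LiesOverPrime ℓ →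
          ∀ σ : AlgebraicClosure ℚ ≃ₐ[ℚ] AlgebraicClosure ℚ, A.IsFrobeniusAt σ ℓ →
            LinearMap.charpoly (ρ.ρ σ) =
              X ^ 2 - C (algebraMap 𝒪' 𝒪'' (χ (CuspForm.heckeAlgebra.T hℓ hℓN hℓS))) * X
                + C ((ℓ : 𝒪''))) ∧
      (∀ q : ℕ, q.Prime → ¬ q ∣ N → q ≠ p → ρ.IsUnramifiedAt q) := by
  obtain ⟨Ps⟩ := nonempty_pseudo (N := N) (p := p) (S := S) (a := aOf χ) wc hpS hp𝒪' tower
  obtain ⟨ρ, hρ1, hρ2⟩ := exists_rep_of_pseudo Ps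
  refine ⟨𝒪', inferInstance, inferInstance, inferInstance, inferInstance, inferInstance,
    inferInstance, Algebra.id 𝒪', Module.Finite.self 𝒪', ?_, ?_, ρ, ?_, ?_⟩
  · exact ⟨fun a ha => ha⟩
  · exact Function.injective_id
  · intro ℓ hℓ hℓN hℓS A hA σ hσ
    have hS' : ℓ ∉ S := fun h => hℓS (Finset.mem_coe.mpr h)
    rw [hρ1 σ, Ps.t_frob ℓ hℓ hS' σ ⟨A, hA, hσ⟩, Ps.ε_frob ℓ hℓ hS' σ ⟨A, hA, hσ⟩,
      aOf_eq χ hℓ hℓN hℓS]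
    rfl
  · intro q hq hqN hqp A hA σ hσ
    exact hρ2 σ (fun g => Ps.t_unram q hq hqN hqp σ ⟨A, hA, hσ⟩ g)

end Fermat.Agent.S30
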